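import Fermat.Agent.S56.W4.CountA.Dense
import Fermat.Agent.S56.W3.TW.Gen
import Fermat.Agent.S56.W3.Tame
import Fermat.Agent.S56.W3.SO.CycLoc
import Fermat.Agent.Lib.KFin.Inertia
import Fermat.Agent.F4.Loc.Datum.Levels

/-!
# S56 / W4 / CountA / Arith : Frobenius and inertia congruences on the integers of `Ω`

Sub-seat ARITH of wall W4-A (owner helper80; statements by helper9).

* `w4a_mem_nonunits_iff` : `y ∈ (padicPlace q).nonunits ↔ ‖ι y‖ < 1`;
* `w4a_frob_congr` (AR1) : a Frobenius lift is congruent to `x ↦ x ^ p` on the integers of `Ω`;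
* `w4a_inertia_congr` (AR2) : inertia acts trivially modulo the maximal ideal of `Ω`;
* `w4a_exists_inertia_cyc` (AR3) : the mod `p` cyclotomic character is nontrivial on inertia.
-/

set_option autoImplicit false

open Fermat.Agent.S56.SO ExtCitation Fermat.Agent.F4 Fermat.Agent.F4.Loc

namespace Fermat.Agent.S56.W4A

/-- The nonunits of `padicPlace q` are the elements of norm `< 1`. -/
theorem w4a_mem_nonunits_iff (q : ℕ) [Fact q.Prime] (y : AlgebraicClosure ℚ) :
    y ∈ (padicPlace q).nonunits ↔ ‖padicEmbedding q y‖ < 1 := by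
  rw [ValuationSubring.mem_nonunits_iff_or]
  constructor
  · rintro (rfl | h)
    · rw [map_zero, norm_zero]
      exact zero_lt_one
    · by_contra hcon
      apply h
      rw [mem_padicPlace_iff, ← NNReal.coe_le_coe, coe_nnnorm, NNReal.coe_one, map_inv₀, norm_inv]
      exact inv_le_one_of_one_le₀ (not_lt.1 hcon)
  · intro h
    by_cases hy : y = 0
    · exact Or.inl hy
    · right
      intro hmem
      rw [mem_padicPlace_iff, ← NNReal.coe_le_coe, coe_nnnorm, NNReal.coe_one, map_inv₀,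
        norm_inv] at hmem
      have h0 : 0 < ‖padicEmbedding q y‖ := by
        rw [norm_pos_iff]
        exact fun h0 => hy ((map_eq_zero_iff _ (padicEmbedding q).toRingHom.injective).1 h0)
      have h1 : 1 ≤ ‖padicEmbedding q y‖ := (inv_le_one₀ h0).1 hmem
      exact absurd h (not_lt.2 h1)

/-- **AR1**: a Frobenius lift is congruent to `x ↦ x ^ p` on the integers of `Ω`. -/
theorem w4a_frob_congr (p : ℕ) [Fact p.Prime] (φ : Gp p)
    (hφ : (primeLocalPlace (pPrime p)).IsFrobeniusAt (locp p φ) p)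
    (x : PadicAlgCl ((pPrime p : Nat.Primes) : ℕ)) (hx : ‖x‖ ≤ 1) : ‖φ • x - x ^ p‖ < 1 := by
  refine w4a_congr_of_dense p (show PadicAlgCl p ≃ₐ[ℚ_[p]] PadicAlgCl p from φ) p ?_ x hx
  intro y hy
  have h1 : locp p φ y - y ^ p ∈ (padicPlace p).nonunits :=
    Fermat.Agent.TameInertia.frob_sub_pow_mem_nonunits (padicPlace p) (locp p φ) p hφ hy
  rw [w4a_mem_nonunits_iff, map_sub, map_pow] at h1
  have h2 : padicEmbedding p (locp p φ y) =
      (show PadicAlgCl p ≃ₐ[ℚ_[p]] PadicAlgCl p from φ) (padicEmbedding p y) :=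
    padicEmbedding_localGaloisToGlobal p _ y
  rw [h2] at h1
  exact h1

/-- **AR2**: inertia acts trivially modulo the maximal ideal of `Ω`. -/
theorem w4a_inertia_congr (p : ℕ) [Fact p.Prime] (τ : Gp p) (hτ : τ ∈ locInertia (pPrime p))
    (x : PadicAlgCl ((pPrime p : Nat.Primes) : ℕ)) (hx : ‖x‖ ≤ 1) : ‖τ • x - x‖ < 1 := by
  have key := w4a_congr_of_dense p (show PadicAlgCl p ≃ₐ[ℚ_[p]] PadicAlgCl p from τ) 1 ?_ x hx
  · rw [pow_one] at key
    exact key
  intro y hy
  have hin : locp p τ ∈ (padicPlace p).inertiaSubgroupIn ℚ := hτ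
  have h1 : locp p τ y - y ∈ (padicPlace p).nonunits :=
    ((Fermat.Agent.KFin.kf_mem_inertiaSubgroupIn_iff (padicPlace p) (locp p τ)).1 hin).2 y hy
  rw [w4a_mem_nonunits_iff, map_sub] at h1
  have h2 : padicEmbedding p (locp p τ y) =
      (show PadicAlgCl p ≃ₐ[ℚ_[p]] PadicAlgCl p from τ) (padicEmbedding p y) :=
    padicEmbedding_localGaloisToGlobal p _ y
  rw [h2] at h1
  rw [pow_one]
  exact h1

/-- **AR3**: the mod `p` cyclotomic character is nontrivial on inertia (`p` odd). -/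
theorem w4a_exists_inertia_cyc (p : ℕ) [Fact p.Prime] (hp2 : p ≠ 2) :
    ∃ h₀ ∈ locInertia (pPrime p), cycLoc p h₀ ≠ 1 := by
  have hp : p.Prime := Fact.out
  have : NeZero p := ⟨hp.ne_zero⟩
  obtain ⟨σ₀, hσ₀, hinv⟩ := Fermat.Agent.S59.SOArith.exists_inertia_inv_on_roots p (padicPlace p)
    (cycloc_padicPlace_liesOver p)
  have hσ₀' : σ₀ ∈ (primeLocalPlace (pPrime p)).inertiaSubgroupIn ℚ := hσ₀
  obtain ⟨τ, hτ, hloc⟩ := exists_of_mem_inertia (pPrime p) hσ₀'
  refine ⟨τ, hτ, fun h1 => ?_⟩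
  have hloc' : locp p τ = σ₀ := hloc
  obtain ⟨ζ, hζ⟩ := HasEnoughRootsOfUnity.exists_primitiveRoot (AlgebraicClosure ℚ) p
  have hfix : σ₀ ζ = ζ := by
    have h2 := cycLoc_spec p τ ζ hζ.pow_eq_one
    rw [h1, ZMod.val_one'', pow_one, hloc'] at h2
    · exact h2
    · exact hp.ne_one
  rw [hinv ζ hζ.pow_eq_one] at hfix
  have hζ0 : ζ ≠ 0 := hζ.ne_zero hp.ne_zero
  have h2 : ζ ^ 2 = 1 := by
    rw [pow_two]
    nth_rewrite 1 [← hfix]
    exact inv_mul_cancel₀ hζ0
  have hdvd : p ∣ 2 := hζ.dvd_of_pow_eq_one 2 h2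
  exact hp2 ((Nat.prime_dvd_prime_iff_eq hp Nat.prime_two).mp hdvd)

end Fermat.Agent.S56.W4A
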