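import Fermat.Agent.S56.W4.CountA.Kum

/-!
# S56 / W4 / CountA / Count : the count of the cocycles of `k(ω η)`, `η ≠ 1` unramified

Generic form (`W4Ctx.count`): the smooth cocycles of `k(ψ)` inject into a set with at most
`|k|²` elements.
-/

set_option autoImplicit false

open Polynomial IntermediateField
open scoped NNReal

namespace Fermat.Agent.S56.W4A

open Fermat.Agent.F4.Loc Fermat.Agent.S56.SO

variable {q : ℕ} [Fact q.Prime]

local notation "Ω" => PadicAlgCl q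
local notation "G" => (PadicAlgCl q ≃ₐ[ℚ_[q]] PadicAlgCl q)

/-! ### approximate roots of `∑ a_j Y ^ (q ^ j)` -/

theorem w4a_one_le_norm_prod (y : Ω) (M : Multiset Ω) (h : ∀ r ∈ M, 1 ≤ ‖y - r‖) :
    1 ≤ ‖(M.map (y - ·)).prod‖ := by
  induction M using Multiset.induction_on with
  | empty => simp
  | cons a M ih =>
    rw [Multiset.map_cons, Multiset.prod_cons, norm_mul]
    exact one_le_mul_of_one_le_of_one_le (h a (Multiset.mem_cons_self a M))
      (ih fun r hr => h r (Multiset.mem_cons_of_mem hr))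

theorem w4a_exists_roots (s : ℕ) (a : ℕ → Ω) (has : ‖a s‖ = 1) :
    ∃ R : Finset Ω, R.card ≤ q ^ s ∧
      ∀ y : Ω, ‖∑ j ∈ Finset.range (s + 1), a j * y ^ (q ^ j)‖ < 1 → ∃ r ∈ R, ‖y - r‖ < 1 := by
  classical
  have hq : q.Prime := Fact.out
  set P : Polynomial (PadicAlgCl q) := ∑ j ∈ Finset.range (s + 1), C (a j) * X ^ (q ^ j) with hP
  have hdeg : P.natDegree ≤ q ^ s := by
    refine natDegree_sum_le_of_forall_le _ _ fun j hj => ?_
    refine (natDegree_C_mul_X_pow_le _ _).trans ?_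
    exact Nat.pow_le_pow_right hq.pos (Nat.lt_succ_iff.1 (Finset.mem_range.1 hj))
  have hcoeff : P.coeff (q ^ s) = a s := by
    rw [hP, finsetSum_coeff, Finset.sum_eq_single s]
    · rw [coeff_C_mul_X_pow, if_pos rfl]
    · intro j _ hjs
      rw [coeff_C_mul_X_pow, if_neg]
      intro h
      exact hjs (Nat.pow_right_injective hq.two_le h).symm
    · intro h
      exact absurd (Finset.mem_range.2 (Nat.lt_succ_self s)) h
  have has0 : a s ≠ 0 := fun h => by
    rw [h, norm_zero] at has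
    exact zero_ne_one has
  have hnat : P.natDegree = q ^ s :=
    le_antisymm hdeg (le_natDegree_of_ne_zero (by rw [hcoeff]; exact has0))
  have hlead : P.leadingCoeff = a s := by rw [leadingCoeff, hnat, hcoeff]
  have hsplit : P.Splits := IsAlgClosed.splits P
  refine ⟨P.roots.toFinset, ?_, fun y hy => ?_⟩
  · exact (Multiset.toFinset_card_le _).trans ((card_roots' P).trans hdeg)
  · have hev : P.eval y = ∑ j ∈ Finset.range (s + 1), a j * y ^ (q ^ j) := by
      rw [hP, eval_finsetSum]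
      refine Finset.sum_congr rfl fun j _ => ?_
      rw [eval_mul, eval_C, eval_pow, eval_X]
    rw [← hev, hsplit.eval_eq_prod_roots, norm_mul, hlead, has, one_mul] at hy
    by_contra hcon
    have h1 : ∀ r ∈ P.roots, 1 ≤ ‖y - r‖ := by
      intro r hr
      by_contra h2
      exact hcon ⟨r, Multiset.mem_toFinset.2 hr, not_le.1 h2⟩
    exact absurd hy (not_lt.2 (w4a_one_le_norm_prod y _ h1))

/-! ### propagation of coboundaries -/

namespace W4Ctx

variable {k : Type} [Field k] [Algebra (ZMod q) k] (C : W4Ctx q k)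

/-- the `x` for which `μ₀ (x g₀)` is a coboundary on the stabiliser of `ζ` -/
def cobSub (g₀ : G → k) : Submodule (ZMod q) k where
  carrier := {x | ∃ t : ZMod q, ∀ h : G, h C.ζ = C.ζ → C.μ₀ (x * g₀ h) = (C.ω' h - 1) * t}
  add_mem' := by
    rintro x y ⟨t, ht⟩ ⟨t', ht'⟩
    refine ⟨t + t', fun h hh => ?_⟩
    rw [add_mul, map_add, ht h hh, ht' h hh]
    ring
  zero_mem' := ⟨0, fun h _ => by rw [zero_mul, map_zero, mul_zero]⟩
  smul_mem' := by
    rintro c x ⟨t, ht⟩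
    refine ⟨c * t, fun h hh => ?_⟩
    rw [smul_mul_assoc, map_smul, ht h hh, smul_eq_mul]
    ring

variable {C}

theorem mem_cobSub {g₀ : G → k} {x : k} : x ∈ C.cobSub g₀ ↔
    ∃ t : ZMod q, ∀ h : G, h C.ζ = C.ζ → C.μ₀ (x * g₀ h) = (C.ω' h - 1) * t := Iff.rfl

theorem cobSub_mul_L {g₀ : G → k} (hg : C.IsCoc g₀) {x : k} (hx : x ∈ C.cobSub g₀) :
    x * C.L ∈ C.cobSub g₀ := by
  obtain ⟨t, ht⟩ := hx
  refine ⟨t + C.μ₀ (x * g₀ C.φ⁻¹), fun h hh => ?_⟩
  have hh' : (C.φ⁻¹ * h * C.φ) C.ζ = C.ζ := C.toW4Data.conj_zeta C.φ h hh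
  have h1 := ht _ hh'
  rw [hg.conj C.φ h, C.ψ_of_fix hh] at h1
  have h2 : C.ω' (C.φ⁻¹ * h * C.φ) = C.ω' h := by
    rw [C.ω'_mul, C.ω'_mul]
    have h4 := C.ω'_inv_mul C.φ
    linear_combination (C.ω' h) * h4
  rw [h2] at h1
  have h3 : x * (C.ψ C.φ⁻¹ * g₀ h + (1 - (algebraMap (ZMod q) k) (C.ω' h)) * g₀ C.φ⁻¹) =
      x * C.L * g₀ h + (1 - C.ω' h) • (x * g₀ C.φ⁻¹) := by
    rw [Algebra.smul_def, map_sub, map_one]
    show _ = x * C.ψ C.φ⁻¹ * g₀ h + _
    ring
  rw [h3, map_add, map_smul, smul_eq_mul] at h1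
  linear_combination h1

theorem cobSub_mul_aeval {g₀ : G → k} (hg : C.IsCoc g₀) (P : (ZMod q)[X]) :
    ∀ x ∈ C.cobSub g₀, x * aeval C.L P ∈ C.cobSub g₀ := by
  have hpow : ∀ (n : ℕ) (x : k), x ∈ C.cobSub g₀ → x * C.L ^ n ∈ C.cobSub g₀ := by
    intro n
    induction n with
    | zero =>
      intro x hx
      rw [pow_zero, mul_one]
      exact hx
    | succ n ih =>
      intro x hx
      rw [pow_succ, ← mul_assoc]
      exact cobSub_mul_L hg (ih x hx)
  induction P using Polynomial.induction_on' with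
  | add P Q hP hQ =>
    intro x hx
    rw [map_add, mul_add]
    exact (C.cobSub g₀).add_mem (hP x hx) (hQ x hx)
  | monomial n a =>
    intro x hx
    have e : x * aeval C.L (monomial n a) = a • (x * C.L ^ n) := by
      rw [aeval_monomial, Algebra.smul_def]
      ring
    rw [e]
    exact (C.cobSub g₀).smul_mem a (hpow n x hx)

/-- a cocycle vanishing on the stabiliser of `ζ` vanishes -/
theorem IsCoc.eq_zero_of_stab {g₀ : G → k} (hg : C.IsCoc g₀) (h₀ : G) (hh₀ : h₀ C.ζ = C.ζ)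
    (hω₀ : C.ω' h₀ ≠ 1) (hvan : ∀ h : G, h C.ζ = C.ζ → g₀ h = 0) (σ : G) : g₀ σ = 0 := by
  have h1 : (σ * h₀ * σ⁻¹) C.ζ = C.ζ := by
    have := C.toW4Data.conj_zeta σ⁻¹ h₀ hh₀
    rwa [inv_inv] at this
  have e1 : g₀ (σ * h₀) = g₀ σ := by rw [hg σ h₀, hvan h₀ hh₀, mul_zero, add_zero]
  have e2 : g₀ (σ * h₀) = C.ψ (σ * h₀ * σ⁻¹) * g₀ σ := by
    have : σ * h₀ = (σ * h₀ * σ⁻¹) * σ := by group
    conv_lhs => rw [this]
    rw [hg, hvan _ h1, zero_add]
  have e3 : C.ψ (σ * h₀ * σ⁻¹) = algebraMap (ZMod q) k (C.ω' h₀) := by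
    rw [C.ψ_of_fix h1]
    congr 1
    rw [C.ω'_mul, C.ω'_mul]
    have h4 := C.ω'_inv_mul σ
    linear_combination (C.ω' h₀) * h4
  rw [e1, e3] at e2
  have e4 : (algebraMap (ZMod q) k (C.ω' h₀) - 1) * g₀ σ = 0 := by
    rw [sub_mul, one_mul, ← e2, sub_self]
  rcases mul_eq_zero.1 e4 with h5 | h5
  · exfalso
    apply hω₀
    have h6 : algebraMap (ZMod q) k (C.ω' h₀) = algebraMap (ZMod q) k 1 := by
      rw [(algebraMap (ZMod q) k).map_one]
      exact sub_eq_zero.1 h5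
    exact (algebraMap (ZMod q) k).injective h6
  · exact h5

/-- **The count (generic form).**  The smooth cocycles of `k(ψ)` inject into a set with at most
`|k|²` elements. -/
theorem count [Finite k] (C : W4Ctx q k) (hq2 : q ≠ 2)
    (hL : C.L ≠ algebraMap (ZMod q) k C.w) (hμ : C.μ₀ ≠ 0) (h₀ : G) (hh₀ : h₀ C.ζ = C.ζ)
    (hω₀ : C.ω' h₀ ≠ 1) :
    ∃ (T : Type) (_ : Finite T) (Φ : {f : G → k // SmoothC1 q f ∧ C.IsCoc f} → T),
      Nat.card T ≤ Nat.card k ^ 2 ∧ Function.Injective Φ := by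
  classical
  have hq : q.Prime := Fact.out
  have hint : IsIntegral (ZMod q) C.L := Algebra.IsIntegral.isIntegral _
  -- the field `F₀ = 𝔽_q(L)`
  have hF₀card : Nat.card (ZMod q)⟮C.L⟯ = q ^ C.s := by
    rw [Module.natCard_eq_pow_finrank (K := ZMod q) (V := (ZMod q)⟮C.L⟯), Nat.card_zmod,
      IntermediateField.adjoin.finrank hint]
    rfl
  set r := Module.finrank (ZMod q)⟮C.L⟯ k with hr
  have hkcard : Nat.card k = (q ^ C.s) ^ r := by
    rw [Module.natCard_eq_pow_finrank (K := (ZMod q)⟮C.L⟯) (V := k), hF₀card]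
  let b : Module.Basis (Fin r) (ZMod q)⟮C.L⟯ k := Module.finBasis (ZMod q)⟮C.L⟯ k
  obtain ⟨R, hRcard, hR⟩ := w4a_exists_roots (q := q) C.s (fun j => ((C.e j : ℕ) : Ω)) e_top_norm
  -- the invariants
  have key : ∀ (f : {f : G → k // SmoothC1 q f ∧ C.IsCoc f}) (i : Fin r),
      ∃ ρ : ↥R, ∃ B : Ω, C.IsKum f.1 (b i) B ∧ ‖B‖ = 1 ∧
        ‖C.toW4Data.θ (B ^ q) - (ρ : Ω)‖ < 1 := by
    intro f i
    obtain ⟨B₀, hB₀⟩ := exists_isKum f.2.2 f.2.1 (b i)
    obtain ⟨B, hB, hBn⟩ := hB₀.exists_unit hL f.2.2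
    obtain ⟨ρ, hρ, hρ'⟩ := hR _ (hB.theta_rel f.2.2 hBn)
    exact ⟨⟨ρ, hρ⟩, B, hB, hBn, hρ'⟩
  choose inv Bf hBf hBn hBρ using key
  refine ⟨(Fin r → ↥R) × k, inferInstance, fun f => (inv f, f.1 h₀), ?_, ?_⟩
  · rw [Nat.card_prod, Nat.card_fun, Nat.card_fin, Nat.card_eq_fintype_card (α := ↥R),
      Fintype.card_coe]
    calc R.card ^ r * Nat.card k ≤ (q ^ C.s) ^ r * Nat.card k :=
          Nat.mul_le_mul_right _ (Nat.pow_le_pow_left hRcard r)
      _ = Nat.card k ^ 2 := by rw [← hkcard]; ring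
  · intro f f' hff
    have h1 : inv f = inv f' := congrArg Prod.fst hff
    have h2 : f.1 h₀ = f'.1 h₀ := congrArg Prod.snd hff
    set g₀ : G → k := fun γ => f.1 γ - f'.1 γ with hg₀
    have hg : C.IsCoc g₀ := f.2.2.sub f'.2.2
    -- the basis vectors lie in `cobSub`
    have hb : ∀ i, (b i : k) ∈ C.cobSub g₀ := by
      intro i
      have hU := (hBf f i).pow_q_U (hBn f i)
      have hU' := (hBf f' i).pow_q_U (hBn f' i)
      have hc : W4Cg (C.toW4Data.θ (Bf f i ^ q)) (C.toW4Data.θ (Bf f' i ^ q)) := by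
        have a1 : W4Cg (C.toW4Data.θ (Bf f i ^ q)) (inv f i : Ω) := hBρ f i
        have a2 : W4Cg (C.toW4Data.θ (Bf f' i ^ q)) (inv f' i : Ω) := hBρ f' i
        rw [← h1] at a2
        exact a1.trans a2.symm
      have huU : C.toW4Data.U (Bf f i ^ q / Bf f' i ^ q) := hU.div hU'
      have hθu : W4Cg (C.toW4Data.θ (Bf f i ^ q / Bf f' i ^ q)) 0 := by
        have e := huU.θ_mul' hU'
        rw [div_mul_cancel₀ _ hU'.ne_zero] at e
        have e2 := (e.symm.trans hc).sub (W4Cg.refl (C.toW4Data.θ (Bf f' i ^ q)))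
        rw [add_sub_cancel_right, sub_self] at e2
        exact e2
      obtain ⟨z, hzU, hzq⟩ := huU.exists_pow_eq hq2 hθu
      have hzq' : Bf f i ^ q = Bf f' i ^ q * z ^ q := by
        rw [hzq, mul_div_cancel₀ _ hU'.ne_zero]
      obtain ⟨t, ht⟩ := (hBf f i).compare (hBf f' i) hzU.1 hzq'
      exact ⟨t, ht⟩
    -- `cobSub = ⊤`
    have htop : ∀ x : k, x ∈ C.cobSub g₀ := by
      intro x
      rw [← b.sum_repr x]
      refine Submodule.sum_mem _ fun i _ => ?_
      have hy : ((b.repr x i : (ZMod q)⟮C.L⟯) : k) ∈ Algebra.adjoin (ZMod q) {C.L} := by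
        rw [← IntermediateField.adjoin_simple_toSubalgebra_of_isAlgebraic hint.isAlgebraic]
        exact (b.repr x i).2
      rw [Algebra.adjoin_singleton_eq_range_aeval] at hy
      obtain ⟨P, hP⟩ := hy
      have e : (b.repr x i) • (b i) = b i * aeval C.L P := by
        have hP' : aeval C.L P = ((b.repr x i : (ZMod q)⟮C.L⟯) : k) := hP
        rw [hP', Algebra.smul_def, mul_comm]
        rfl
      rw [e]
      exact cobSub_mul_aeval hg P _ (hb i)
    -- `g₀` vanishes on the stabiliser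
    have hg0 : g₀ h₀ = 0 := sub_eq_zero.2 h2
    have hvan : ∀ h : G, h C.ζ = C.ζ → g₀ h = 0 := by
      intro h hh
      by_contra hne
      apply hμ
      apply LinearMap.ext
      intro y
      obtain ⟨t, ht⟩ := htop (y * (g₀ h)⁻¹)
      have ht0 : t = 0 := by
        have h3 := ht h₀ hh₀
        rw [hg0, mul_zero, map_zero] at h3
        rcases mul_eq_zero.1 h3.symm with h5 | h5
        · exact absurd (sub_eq_zero.1 h5) hω₀
        · exact h5
      have h4 := ht h hh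
      rw [ht0, mul_zero, mul_assoc, inv_mul_cancel₀ hne, mul_one] at h4
      rw [h4]
      rfl
    apply Subtype.ext
    funext σ
    exact sub_eq_zero.1 (hg.eq_zero_of_stab h₀ hh₀ hω₀ hvan σ)

end W4Ctx

end Fermat.Agent.S56.W4A
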