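import Fermat.Agent.S56.W1.Kill.Dense
import Fermat.Agent.F4.Loc.Krasner

/-!
# S56 / W4 / CountA / Dense : `ι(ℚ̄)` is dense in `PadicAlgCl q`, congruences pass to the closure

`Ω = PadicAlgCl q`, `ι = padicEmbedding q`.
* `w4a_dense` : every element of `Ω` is a limit of elements of `ι(ℚ̄)`;
* `w4a_congr_of_dense` : an automorphism `σ` of `Ω/ℚ_q` and a natural number `n ≥ 1` with
  `‖σ (ι y) - (ι y) ^ n‖ < 1` for all `y` in the place `padicPlace q` satisfy
  `‖σ x - x ^ n‖ < 1` for all `x` with `‖x‖ ≤ 1`.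
-/

set_option autoImplicit false

open Polynomial

namespace Fermat.Agent.S56.W4A

variable (q : ℕ) [Fact q.Prime]

local notation "Ω" => PadicAlgCl q
local notation "Qb" => AlgebraicClosure ℚ

/-- `ι(ℚ̄)` is dense in `Ω`. -/
theorem w4a_dense (x : Ω) {ε : ℝ} (hε : 0 < ε) :
    ∃ y : Qb, ‖x - padicEmbedding q y‖ < ε := by
  obtain ⟨y₀, hy₀⟩ := Fermat.Agent.F4.Loc.exists_algebraic_generator q x
  have hint : IsAlgebraic ℚ_[q] (padicEmbedding q y₀) := Algebra.IsAlgebraic.isAlgebraic _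
  have hx : x ∈ Algebra.adjoin ℚ_[q] {padicEmbedding q y₀} := by
    rw [← IntermediateField.adjoin_simple_toSubalgebra_of_isAlgebraic hint]
    exact hy₀
  rw [Algebra.adjoin_singleton_eq_range_aeval] at hx
  obtain ⟨g, rfl⟩ := hx
  obtain ⟨h, hh, -⟩ := Fermat.Agent.S56.kill_exists_approx q g (padicEmbedding q y₀)
    (padicEmbedding q y₀) hε
  refine ⟨aeval y₀ h, ?_⟩
  have e : padicEmbedding q (aeval y₀ h) = aeval (padicEmbedding q y₀) h :=
    (aeval_algHom_apply (padicEmbedding q) y₀ h).symm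
  rw [e]
  exact hh

/-- The norm of `Ω` is ultrametric. -/
theorem w4a_norm_add_le (x y : Ω) : ‖x + y‖ ≤ max ‖x‖ ‖y‖ :=
  IsUltrametricDist.norm_add_le_max x y

theorem w4a_norm_sub_le (x y : Ω) : ‖x - y‖ ≤ max ‖x‖ ‖y‖ := by
  rw [sub_eq_add_neg]
  exact (w4a_norm_add_le q x (-y)).trans (by rw [norm_neg])

/-- automorphisms are isometries -/
theorem w4a_norm_map (σ : Ω ≃ₐ[ℚ_[q]] Ω) (x : Ω) : ‖σ x‖ = ‖x‖ := by
  have h := nnnorm_padicAlgCl_algEquiv q σ x
  exact congrArg NNReal.toReal h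

/-- `‖x ^ n - y ^ n‖ ≤ ‖x - y‖` for integral `x`, `y`. -/
theorem w4a_norm_pow_sub_pow_le {x y : Ω} (hx : ‖x‖ ≤ 1) (hy : ‖y‖ ≤ 1) (n : ℕ) :
    ‖x ^ n - y ^ n‖ ≤ ‖x - y‖ := by
  induction n with
  | zero => simp
  | succ n ih =>
    have e : x ^ (n + 1) - y ^ (n + 1) = x ^ n * (x - y) + (x ^ n - y ^ n) * y := by ring
    rw [e]
    refine (w4a_norm_add_le q _ _).trans (max_le ?_ ?_)
    · rw [norm_mul, norm_pow]
      exact mul_le_of_le_one_left (norm_nonneg _) (pow_le_one₀ (norm_nonneg _) hx)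
    · rw [norm_mul]
      exact (mul_le_of_le_one_right (norm_nonneg _) hy).trans ih

/-- Congruences modulo the maximal ideal pass from `ι(ℚ̄)` to `Ω`. -/
theorem w4a_congr_of_dense (σ : Ω ≃ₐ[ℚ_[q]] Ω) (n : ℕ)
    (h : ∀ y : Qb, y ∈ padicPlace q →
      ‖σ (padicEmbedding q y) - (padicEmbedding q y) ^ n‖ < 1)
    (x : Ω) (hx : ‖x‖ ≤ 1) : ‖σ x - x ^ n‖ < 1 := by
  obtain ⟨y, hy⟩ := w4a_dense q x (ε := 1) one_pos
  have hy1 : ‖padicEmbedding q y‖ ≤ 1 := by
    have e : padicEmbedding q y = x - (x - padicEmbedding q y) := by ring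
    rw [e]
    exact (w4a_norm_sub_le q _ _).trans (max_le hx hy.le)
  have hyP : y ∈ padicPlace q := by
    rw [mem_padicPlace_iff, ← NNReal.coe_le_coe, coe_nnnorm, NNReal.coe_one]
    exact hy1
  have e : σ x - x ^ n = σ (x - padicEmbedding q y) +
      ((σ (padicEmbedding q y) - (padicEmbedding q y) ^ n) -
        (x ^ n - (padicEmbedding q y) ^ n)) := by
    rw [map_sub]
    ring
  rw [e]
  refine lt_of_le_of_lt (w4a_norm_add_le q _ _) (max_lt ?_ ?_)
  · rw [w4a_norm_map]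
    exact hy
  · refine lt_of_le_of_lt (w4a_norm_sub_le q _ _) (max_lt (h y hyP) ?_)
    exact lt_of_le_of_lt (w4a_norm_pow_sub_pow_le q hx hy1 n) hy

end Fermat.Agent.S56.W4A
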