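import Fermat.Agent.S56.W4.CountA.Theta
import Fermat.Agent.S56.W3.SO.KummerFp
import Fermat.Agent.F4.Loc.FT

/-!
# S56 / W4 / CountA / Kum : Kummer generators over `ℚ_q(ζ_m)`

`G = Gal(Ω/ℚ_q)`, `H' = Stab(ζ)`, `ε` a primitive `q`-th root of unity, `ω` the mod `q` cyclotomic
character, `η : G → kˣ` a character trivial on `H'`, `ψ = ω η`, `μ₀ : k → 𝔽_q` linear.
For a cocycle `f` of `k(ψ)` and `x ∈ k`, `B ∈ Ω^×` is a *Kummer generator* (`IsKum f x B`) if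
`h B = ε ^ μ₀(x f(h)) B` for all `h ∈ H'`.
-/

set_option autoImplicit false

open Polynomial IntermediateField
open scoped NNReal

namespace Fermat.Agent.S56.W4A

open Fermat.Agent.F4.Loc Fermat.Agent.S56.SO

/-- The context of the count. -/
structure W4Ctx (q : ℕ) [Fact q.Prime] (k : Type) [Field k] [Algebra (ZMod q) k]
    extends W4Data q where
  ε : PadicAlgCl q
  hε : IsPrimitiveRoot ε q
  ω : (PadicAlgCl q ≃ₐ[ℚ_[q]] PadicAlgCl q) →* (ZMod q)ˣ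
  hω : ∀ γ, γ ε = ε ^ ((ω γ : (ZMod q)ˣ) : ZMod q).val
  η : (PadicAlgCl q ≃ₐ[ℚ_[q]] PadicAlgCl q) →* kˣ
  hη : ∀ h : PadicAlgCl q ≃ₐ[ℚ_[q]] PadicAlgCl q, h ζ = ζ → η h = 1
  μ₀ : k →ₗ[ZMod q] ZMod q

variable {q : ℕ} [Fact q.Prime] {k : Type} [Field k] [Algebra (ZMod q) k]

local notation "Ω" => PadicAlgCl q
local notation "G" => (PadicAlgCl q ≃ₐ[ℚ_[q]] PadicAlgCl q)

namespace W4Ctx

variable (C : W4Ctx q k)

/-- the cyclotomic character with values in `𝔽_q` -/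
noncomputable def ω' (γ : G) : ZMod q := ((C.ω γ : (ZMod q)ˣ) : ZMod q)

theorem ω'_mul (σ τ : G) : C.ω' (σ * τ) = C.ω' σ * C.ω' τ := by
  unfold ω'
  rw [map_mul, Units.val_mul]

theorem ω'_one : C.ω' 1 = 1 := by
  unfold ω'
  rw [map_one, Units.val_one]

theorem ω'_inv_mul (σ : G) : C.ω' σ⁻¹ * C.ω' σ = 1 := by
  rw [← C.ω'_mul, inv_mul_cancel, C.ω'_one]

theorem ω'_ne_zero (σ : G) : C.ω' σ ≠ 0 := (C.ω σ).ne_zero

/-- the character `ψ = ω η` -/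
noncomputable def ψ (γ : G) : k := algebraMap (ZMod q) k (C.ω' γ) * (C.η γ : k)

theorem ψ_mul (σ τ : G) : C.ψ (σ * τ) = C.ψ σ * C.ψ τ := by
  unfold ψ
  rw [C.ω'_mul, map_mul, map_mul, Units.val_mul]
  ring

theorem ψ_one : C.ψ 1 = 1 := by
  unfold ψ
  rw [C.ω'_one, map_one, map_one, Units.val_one, mul_one]

theorem ψ_inv_mul (σ : G) : C.ψ σ⁻¹ * C.ψ σ = 1 := by
  rw [← C.ψ_mul, inv_mul_cancel, C.ψ_one]

theorem ψ_of_fix {h : G} (hh : h C.ζ = C.ζ) : C.ψ h = algebraMap (ZMod q) k (C.ω' h) := by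
  unfold ψ
  rw [C.hη h hh, Units.val_one, mul_one]

theorem eps_pow : C.ε ^ q = 1 := C.hε.pow_eq_one

theorem eps_ne_zero : C.ε ≠ 0 := C.hε.ne_zero (Fact.out : q.Prime).ne_zero

theorem map_eps (γ : G) : γ C.ε = kfpE C.ε (C.ω' γ) := C.hω γ

theorem map_kfpE (γ : G) (c : ZMod q) : γ (kfpE C.ε c) = kfpE C.ε (c * C.ω' γ) := by
  rw [kfpE_mul C.eps_pow, ← C.map_eps]
  unfold kfpE
  rw [map_pow]

theorem kfpE_ne_zero (c : ZMod q) : kfpE C.ε c ≠ 0 := pow_ne_zero _ C.eps_ne_zero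

theorem kfpE_zero : kfpE C.ε (0 : ZMod q) = 1 := by
  unfold kfpE
  rw [ZMod.val_zero, pow_zero]

/-- the cocycles of `k(ψ)` -/
def IsCoc (f : G → k) : Prop := ∀ σ τ : G, f (σ * τ) = f σ + C.ψ σ * f τ

variable {C}

theorem IsCoc.map_one {f : G → k} (hf : C.IsCoc f) : f 1 = 0 := by
  have h := hf 1 1
  rw [mul_one, C.ψ_one, one_mul] at h
  exact add_eq_left.1 h.symm

theorem IsCoc.map_inv {f : G → k} (hf : C.IsCoc f) (τ : G) : f τ = -(C.ψ τ * f τ⁻¹) := by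
  have h := hf τ τ⁻¹
  rw [mul_inv_cancel, hf.map_one] at h
  exact eq_neg_of_add_eq_zero_left h.symm

/-- `f (τ⁻¹ h τ) = ψ(τ⁻¹) f(h) + (1 - ψ h) f(τ⁻¹)` -/
theorem IsCoc.conj {f : G → k} (hf : C.IsCoc f) (τ h : G) :
    f (τ⁻¹ * h * τ) = C.ψ τ⁻¹ * f h + (1 - C.ψ h) * f τ⁻¹ := by
  rw [mul_assoc, hf τ⁻¹ (h * τ), hf h τ, hf.map_inv τ]
  have h1 := C.ψ_inv_mul τ
  linear_combination (-(C.ψ h * f τ⁻¹)) * h1

theorem IsCoc.sub {f f' : G → k} (hf : C.IsCoc f) (hf' : C.IsCoc f') :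
    C.IsCoc (fun γ => f γ - f' γ) := by
  intro σ τ
  show f (σ * τ) - f' (σ * τ) = f σ - f' σ + C.ψ σ * (f τ - f' τ)
  rw [hf σ τ, hf' σ τ]
  ring

variable (C)

/-- `B` is a Kummer generator for `μ₀ (x · f)` on the stabiliser of `ζ`. -/
def IsKum (f : G → k) (x : k) (B : Ω) : Prop :=
  B ≠ 0 ∧ ∀ h : G, h C.ζ = C.ζ → h B = kfpE C.ε (C.μ₀ (x * f h)) * B

variable {C}

theorem isKum_zero_one (f : G → k) : C.IsKum f 0 1 := by
  refine ⟨one_ne_zero, fun h _ => ?_⟩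
  rw [zero_mul, map_zero, C.kfpE_zero, map_one, one_mul]

theorem IsKum.mul {f : G → k} {x x' : k} {B B' : Ω} (h : C.IsKum f x B) (h' : C.IsKum f x' B') :
    C.IsKum f (x + x') (B * B') := by
  have : NeZero q := ⟨(Fact.out : q.Prime).ne_zero⟩
  refine ⟨mul_ne_zero h.1 h'.1, fun g hg => ?_⟩
  rw [map_mul, h.2 g hg, h'.2 g hg, add_mul, map_add, kfpE_add C.eps_pow]
  ring

theorem IsKum.pow {f : G → k} {x : k} {B : Ω} (h : C.IsKum f x B) (n : ℕ) :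
    C.IsKum f ((n : k) * x) (B ^ n) := by
  induction n with
  | zero =>
    rw [Nat.cast_zero, zero_mul, pow_zero]
    exact isKum_zero_one f
  | succ n ih =>
    rw [Nat.cast_succ, add_mul, one_mul, pow_succ]
    exact ih.mul h

theorem IsKum.prod {f : G → k} {ι : Type*} (s : Finset ι) (x : ι → k) (B : ι → Ω) (e : ι → ℕ)
    (h : ∀ i ∈ s, C.IsKum f (x i) (B i)) :
    C.IsKum f (∑ i ∈ s, (e i : k) * x i) (∏ i ∈ s, B i ^ e i) := by
  classical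
  induction s using Finset.induction_on with
  | empty =>
    rw [Finset.sum_empty, Finset.prod_empty]
    exact isKum_zero_one f
  | insert a s ha ih =>
    rw [Finset.sum_insert ha, Finset.prod_insert ha]
    exact ((h a (Finset.mem_insert_self a s)).pow _).mul
      (ih fun i hi => h i (Finset.mem_insert_of_mem hi))

theorem IsKum.fixed {f : G → k} {B : Ω} (h : C.IsKum f 0 B) : W4Fixed q C.ζ B := by
  intro g hg
  rw [h.2 g hg, zero_mul, map_zero, C.kfpE_zero, one_mul]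

theorem IsKum.pow_q_fixed {f : G → k} {x : k} {B : Ω} (h : C.IsKum f x B) :
    W4Fixed q C.ζ (B ^ q) := by
  intro g hg
  rw [map_pow, h.2 g hg, mul_pow, kfpE_pow C.eps_pow, one_mul]

theorem IsKum.mul_fixed {f : G → k} {x : k} {B z : Ω} (h : C.IsKum f x B) (hz : W4Fixed q C.ζ z)
    (hz0 : z ≠ 0) : C.IsKum f x (B * z) := by
  refine ⟨mul_ne_zero h.1 hz0, fun g hg => ?_⟩
  rw [map_mul, h.2 g hg, hz g hg, mul_assoc]

/-- the twist: from `x` to `x ψ(φ⁻¹)` -/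
theorem IsKum.twist {f : G → k} (hf : C.IsCoc f) {x : k} {B : Ω} (h : C.IsKum f x B) :
    C.IsKum f (x * C.ψ C.φ⁻¹)
      ((C.φ B) ^ (C.ω' C.φ⁻¹).val * kfpE C.ε (C.μ₀ (x * f C.φ⁻¹))) := by
  have : NeZero q := ⟨(Fact.out : q.Prime).ne_zero⟩
  have hφB : C.φ B ≠ 0 := (_root_.map_ne_zero _).2 h.1
  refine ⟨mul_ne_zero (pow_ne_zero _ hφB) (C.kfpE_ne_zero _), fun g hg => ?_⟩
  set τ := C.φ with hτ
  set t := C.μ₀ (x * f τ⁻¹) with ht
  set w := C.ω' τ⁻¹ with hw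
  have hg' : (τ⁻¹ * g * τ) C.ζ = C.ζ := C.toW4Data.conj_zeta τ g hg
  -- `g (τ B) = τ (g' B)`
  have e1 : g (τ B) = τ ((τ⁻¹ * g * τ) B) := by
    rw [AlgEquiv.mul_apply, AlgEquiv.mul_apply]
    exact (τ.apply_symm_apply _).symm
  have e2 : g (τ B) = kfpE C.ε (C.μ₀ (x * f (τ⁻¹ * g * τ)) * C.ω' τ) * τ B := by
    rw [e1, h.2 _ hg', map_mul, C.map_kfpE]
  have e3 : C.μ₀ (x * f (τ⁻¹ * g * τ)) =
      C.μ₀ (x * C.ψ τ⁻¹ * f g) + (1 - C.ω' g) * t := by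
    rw [hf.conj τ g, C.ψ_of_fix hg, ht, ← smul_eq_mul (a := 1 - C.ω' g), ← map_smul, ← map_add]
    congr 1
    rw [Algebra.smul_def, map_sub, map_one]
    ring
  have e4 : g (τ B ^ w.val) = kfpE C.ε (C.μ₀ (x * f (τ⁻¹ * g * τ))) * τ B ^ w.val := by
    rw [map_pow, e2, mul_pow]
    congr 1
    have : kfpE C.ε (C.μ₀ (x * f (τ⁻¹ * g * τ)) * C.ω' τ) ^ w.val =
        kfpE C.ε (w * (C.μ₀ (x * f (τ⁻¹ * g * τ)) * C.ω' τ)) := (kfpE_mul C.eps_pow _ _).symm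
    rw [this]
    congr 1
    have h1 : w * C.ω' τ = 1 := C.ω'_inv_mul τ
    linear_combination (C.μ₀ (x * f (τ⁻¹ * g * τ))) * h1
  rw [map_mul, e4, C.map_kfpE, e3]
  have e5 : kfpE C.ε (C.μ₀ (x * C.ψ τ⁻¹ * f g)) * kfpE C.ε t =
      kfpE C.ε (C.μ₀ (x * C.ψ τ⁻¹ * f g) + (1 - C.ω' g) * t) * kfpE C.ε (t * C.ω' g) := by
    rw [← kfpE_add C.eps_pow, ← kfpE_add C.eps_pow]
    congr 1
    ring
  calc kfpE C.ε (C.μ₀ (x * C.ψ τ⁻¹ * f g) + (1 - C.ω' g) * t) * τ B ^ w.val *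
        kfpE C.ε (t * C.ω' g)
      = (kfpE C.ε (C.μ₀ (x * C.ψ τ⁻¹ * f g) + (1 - C.ω' g) * t) * kfpE C.ε (t * C.ω' g)) *
        τ B ^ w.val := by ring
    _ = kfpE C.ε (C.μ₀ (x * C.ψ τ⁻¹ * f g)) * (τ B ^ w.val * kfpE C.ε t) := by
        rw [← e5]
        ring

variable (C)

/-- `L = ψ(φ⁻¹)` -/
noncomputable def L : k := C.ψ C.φ⁻¹

/-- `w = ω(φ⁻¹)` -/
noncomputable def w : ZMod q := C.ω' C.φ⁻¹

variable {C}

/-- iterated twists -/
theorem IsKum.iter {f : G → k} (hf : C.IsCoc f) {x : k} {B : Ω} (h : C.IsKum f x B) (j : ℕ) :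
    ∃ Bj : Ω, C.IsKum f (x * C.L ^ j) Bj ∧ Bj ^ q = ((C.φ ^ j) (B ^ q)) ^ (C.w.val ^ j) := by
  induction j with
  | zero =>
    refine ⟨B, ?_, ?_⟩
    · rw [pow_zero, mul_one]
      exact h
    · rw [pow_zero, pow_zero, pow_one]
      rfl
  | succ j ih =>
    obtain ⟨Bj, hBj, hBjq⟩ := ih
    refine ⟨(C.φ Bj) ^ (C.ω' C.φ⁻¹).val * kfpE C.ε (C.μ₀ (x * C.L ^ j * f C.φ⁻¹)), ?_, ?_⟩
    · have := hBj.twist hf
      rw [mul_assoc, show C.ψ C.φ⁻¹ = C.L from rfl, ← pow_succ] at this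
      exact this
    · rw [mul_pow, kfpE_pow C.eps_pow, mul_one, ← pow_mul, mul_comm, pow_mul, ← map_pow, hBjq,
        map_pow, ← pow_mul, pow_succ' C.φ j, AlgEquiv.mul_apply, pow_succ C.w.val j]
      rfl

/-! ### the relation coming from the minimal polynomial of `L` -/

theorem natCast_val_eq_algebraMap (c : ZMod q) : ((c.val : ℕ) : k) = algebraMap (ZMod q) k c := by
  have : NeZero q := ⟨(Fact.out : q.Prime).ne_zero⟩
  have h := map_natCast (algebraMap (ZMod q) k) c.val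
  rw [ZMod.natCast_val, ZMod.cast_id', id] at h
  exact h.symm

variable (C)

/-- the minimal polynomial of `L` over `𝔽_q` -/
noncomputable def cpoly : (ZMod q)[X] := minpoly (ZMod q) C.L

/-- its degree -/
noncomputable def s : ℕ := C.cpoly.natDegree

/-- the exponents of the relation -/
noncomputable def e (j : ℕ) : ℕ := C.w.val ^ j * (C.cpoly.coeff j).val

variable {C}

theorem IsKum.rel {f : G → k} (hf : C.IsCoc f) {x : k} {B : Ω} (h : C.IsKum f x B) :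
    ∃ Z : Ω, W4Fixed q C.ζ Z ∧ Z ≠ 0 ∧
      Z ^ q = ∏ j ∈ Finset.range (C.s + 1), ((C.φ ^ j) (B ^ q)) ^ C.e j := by
  choose Bf hBf hBfq using fun j => h.iter hf j
  have hZ := IsKum.prod (C := C) (f := f) (Finset.range (C.s + 1)) (fun j => x * C.L ^ j) Bf
    (fun j => (C.cpoly.coeff j).val) (fun j _ => hBf j)
  have hsum : ∑ j ∈ Finset.range (C.s + 1), (((C.cpoly.coeff j).val : ℕ) : k) * (x * C.L ^ j)
      = 0 := by
    have h1 : aeval C.L C.cpoly = 0 := minpoly.aeval _ _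
    rw [aeval_eq_sum_range] at h1
    have h2 : ∑ j ∈ Finset.range (C.s + 1), (((C.cpoly.coeff j).val : ℕ) : k) * (x * C.L ^ j)
        = x * ∑ j ∈ Finset.range (C.cpoly.natDegree + 1), C.cpoly.coeff j • C.L ^ j := by
      rw [Finset.mul_sum]
      refine Finset.sum_congr rfl fun j _ => ?_
      rw [natCast_val_eq_algebraMap, Algebra.smul_def]
      ring
    rw [h2, h1, mul_zero]
  rw [hsum] at hZ
  refine ⟨_, hZ.fixed, hZ.1, ?_⟩
  rw [← Finset.prod_pow]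
  refine Finset.prod_congr rfl fun j _ => ?_
  rw [← pow_mul, mul_comm, pow_mul, hBfq, ← pow_mul]
  rfl

/-- `∑ e_j = c(w) ≠ 0` in `𝔽_q` -/
theorem e_sum_ne [Finite k] (hL : C.L ≠ algebraMap (ZMod q) k C.w) :
    ¬ q ∣ ∑ j ∈ Finset.range (C.s + 1), C.e j := by
  have : NeZero q := ⟨(Fact.out : q.Prime).ne_zero⟩
  rw [← ZMod.natCast_eq_zero_iff]
  have h1 : ((∑ j ∈ Finset.range (C.s + 1), C.e j : ℕ) : ZMod q) = C.cpoly.eval C.w := by
    rw [eval_eq_sum_range, Nat.cast_sum]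
    refine Finset.sum_congr rfl fun j _ => ?_
    unfold e
    rw [Nat.cast_mul, Nat.cast_pow, ZMod.natCast_val, ZMod.natCast_val, ZMod.cast_id', id,
      id, mul_comm]
  rw [h1]
  intro h0
  have hint : IsIntegral (ZMod q) C.L := Algebra.IsIntegral.isIntegral _
  have hirr : Irreducible C.cpoly := minpoly.irreducible hint
  have hdeg : C.cpoly.degree = 1 := degree_eq_one_of_irreducible_of_root hirr h0
  obtain ⟨a, ha⟩ := minpoly.mem_range_of_degree_eq_one (ZMod q) C.L hdeg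
  have hc : C.cpoly = X - Polynomial.C a := by
    unfold cpoly
    rw [← ha]
    exact minpoly.eq_X_sub_C_of_algebraMap_inj a (algebraMap (ZMod q) k).injective
  rw [hc, eval_sub, eval_X, eval_C, sub_eq_zero] at h0
  apply hL
  rw [h0, ← ha]

theorem e_top_norm [Finite k] : ‖((C.e C.s : ℕ) : Ω)‖ = 1 := by
  have hq : q.Prime := Fact.out
  have : NeZero q := ⟨hq.ne_zero⟩
  apply w4a_norm_natCast_of_not_dvd
  have hint : IsIntegral (ZMod q) C.L := Algebra.IsIntegral.isIntegral _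
  have hmon : C.cpoly.Monic := minpoly.monic hint
  have h1 : C.cpoly.coeff C.s = 1 := hmon.coeff_natDegree
  unfold e
  rw [h1, ZMod.val_one'' hq.ne_one, mul_one]
  intro hdvd
  have h2 : q ∣ C.w.val := hq.dvd_of_dvd_pow hdvd
  have h3 : C.w = 0 := by
    rw [← ZMod.natCast_eq_zero_iff, ZMod.natCast_val, ZMod.cast_id', id] at h2
    exact h2
  exact C.ω'_ne_zero _ h3

theorem e_norm_le (j : ℕ) : ‖((C.e j : ℕ) : Ω)‖ ≤ 1 := w4a_norm_natCast_le q _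

/-- a Kummer generator can be normalised to a unit -/
theorem IsKum.exists_unit [Finite k] (hL : C.L ≠ algebraMap (ZMod q) k C.w) {f : G → k}
    (hf : C.IsCoc f) {x : k} {B : Ω} (h : C.IsKum f x B) :
    ∃ B₁ : Ω, C.IsKum f x B₁ ∧ ‖B₁‖ = 1 := by
  have hq : q.Prime := Fact.out
  have hq1 : (1 : ℝ) < q := w4a_one_lt_q q
  have hq0 : (0 : ℝ) < q := w4a_q_pos q
  obtain ⟨Z, hZf, hZ0, hZq⟩ := h.rel hf
  have hX0 : B ^ q ≠ 0 := pow_ne_zero _ h.1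
  obtain ⟨n, hn⟩ := W4Fixed.norm_eq C.toW4Data.m_coprime C.toW4Data.hζ' h.pow_q_fixed hX0
  obtain ⟨a, ha⟩ := W4Fixed.norm_eq C.toW4Data.m_coprime C.toW4Data.hζ' hZf hZ0
  have h1 : ‖Z‖ ^ q = ‖B ^ q‖ ^ (∑ j ∈ Finset.range (C.s + 1), C.e j) := by
    rw [← norm_pow, hZq, norm_prod, ← Finset.prod_pow_eq_pow_sum]
    refine Finset.prod_congr rfl fun j _ => ?_
    rw [norm_pow, w4a_norm_map]
  rw [ha, hn, ← zpow_natCast, ← zpow_natCast, ← zpow_mul, ← zpow_mul] at h1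
  have h2 : a * (q : ℤ) = n * ((∑ j ∈ Finset.range (C.s + 1), C.e j : ℕ) : ℤ) :=
    zpow_right_injective₀ hq0 hq1.ne' h1
  have h3 : (q : ℤ) ∣ n := by
    have h4 : (q : ℤ) ∣ n * ((∑ j ∈ Finset.range (C.s + 1), C.e j : ℕ) : ℤ) :=
      ⟨a, by rw [← h2, mul_comm]⟩
    rcases (Nat.prime_iff_prime_int.1 hq).dvd_or_dvd h4 with h5 | h5
    · exact h5
    · exact absurd (Int.natCast_dvd_natCast.1 h5) (e_sum_ne hL)
  obtain ⟨n', hn'⟩ := h3
  have hBn : ‖B‖ = (q : ℝ) ^ n' := by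
    have h5 : ‖B‖ ^ q = ((q : ℝ) ^ n') ^ q := by
      rw [← norm_pow, hn, hn', mul_comm, zpow_mul, zpow_natCast]
    have hnn : (0 : ℝ) ≤ ‖B‖ := norm_nonneg _
    have hnn' : (0 : ℝ) ≤ (q : ℝ) ^ n' := (zpow_pos hq0 _).le
    exact (pow_left_inj₀ hnn hnn' hq.ne_zero).1 h5
  have hq0' : (q : Ω) ≠ 0 := w4a_q_ne_zero q
  refine ⟨B * (q : Ω) ^ n', h.mul_fixed ((w4Fixed_natCast _ q).zpow n') (zpow_ne_zero _ hq0'), ?_⟩
  rw [norm_mul, norm_zpow, w4a_norm_q, hBn, inv_zpow, mul_inv_cancel₀ (zpow_ne_zero _ hq0.ne')]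

/-- a unit Kummer generator gives a fixed unit `B ^ q` -/
theorem IsKum.pow_q_U {f : G → k} {x : k} {B : Ω} (h : C.IsKum f x B) (hB : ‖B‖ = 1) :
    C.toW4Data.U (B ^ q) :=
  ⟨h.pow_q_fixed, by rw [norm_pow, hB, one_pow]⟩

/-- the relation satisfied by `θ (B ^ q)` -/
theorem IsKum.theta_rel {f : G → k} (hf : C.IsCoc f) {x : k} {B : Ω} (h : C.IsKum f x B)
    (hB : ‖B‖ = 1) :
    ‖∑ j ∈ Finset.range (C.s + 1), ((C.e j : ℕ) : Ω) * (C.toW4Data.θ (B ^ q)) ^ (q ^ j)‖ < 1 := by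
  have hq : q.Prime := Fact.out
  have hU : C.toW4Data.U (B ^ q) := h.pow_q_U hB
  obtain ⟨Z, hZf, hZ0, hZq⟩ := h.rel hf
  have hUj : ∀ j ∈ Finset.range (C.s + 1), C.toW4Data.U ((C.φ ^ j) (B ^ q)) :=
    fun j _ => hU.map _
  have hZn : ‖Z‖ = 1 := by
    have h1 : ‖Z‖ ^ q = 1 := by
      rw [← norm_pow, hZq]
      exact (C.toW4Data.U_prod _ _ fun j hj => (hUj j hj).pow _).2
    exact (pow_eq_one_iff_of_nonneg (norm_nonneg _) hq.ne_zero).1 h1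
  have hZU : C.toW4Data.U Z := ⟨hZf, hZn⟩
  have h1 : W4Cg (C.toW4Data.θ (Z ^ q)) 0 := hZU.θ_pow_q
  rw [hZq] at h1
  have h2 := C.toW4Data.θ_prod (Finset.range (C.s + 1)) (fun j => (C.φ ^ j) (B ^ q)) C.e hUj
  have h3 : W4Cg (∑ j ∈ Finset.range (C.s + 1), ((C.e j : ℕ) : Ω) *
      C.toW4Data.θ ((C.φ ^ j) (B ^ q)))
      (∑ j ∈ Finset.range (C.s + 1), ((C.e j : ℕ) : Ω) * (C.toW4Data.θ (B ^ q)) ^ (q ^ j)) :=
    W4Cg.sum _ fun j _ => (hU.θ_phi_pow j).mul_left (e_norm_le j)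
  exact ((h3.symm.trans h2.symm).trans h1).norm_lt

/-- comparison of two Kummer generators with the same `q`-th power class -/
theorem IsKum.compare {f f' : G → k} {x : k} {B B' z : Ω} (h : C.IsKum f x B)
    (h' : C.IsKum f' x B') (hz : W4Fixed q C.ζ z) (hzq : B ^ q = B' ^ q * z ^ q) :
    ∃ t : ZMod q, ∀ g : G, g C.ζ = C.ζ → C.μ₀ (x * (f g - f' g)) = (C.ω' g - 1) * t := by
  have hq : q.Prime := Fact.out
  have : NeZero q := ⟨hq.ne_zero⟩
  have hz0 : z ≠ 0 := by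
    rintro rfl
    rw [zero_pow hq.ne_zero, mul_zero] at hzq
    exact pow_ne_zero _ h.1 hzq
  have hB'z : B' * z ≠ 0 := mul_ne_zero h'.1 hz0
  have h1 : (B / (B' * z)) ^ q = 1 := by
    rw [div_pow, mul_pow, hzq]
    exact div_self (mul_ne_zero (pow_ne_zero _ h'.1) (pow_ne_zero _ hz0))
  obtain ⟨j, -, hj⟩ := C.hε.eq_pow_of_pow_eq_one h1
  have hB : B = B' * z * kfpE C.ε (j : ZMod q) := by
    rw [kfpE_natCast C.eps_pow, hj, mul_div_cancel₀ _ hB'z]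
  refine ⟨(j : ZMod q), fun g hg => ?_⟩
  have e1 := h.2 g hg
  have e2 : g B = kfpE C.ε (C.μ₀ (x * f' g)) * B' * z * kfpE C.ε ((j : ZMod q) * C.ω' g) := by
    conv_lhs => rw [hB]
    rw [map_mul, map_mul, h'.2 g hg, hz g hg, C.map_kfpE]
  have e3 : kfpE C.ε (C.μ₀ (x * f g) + (j : ZMod q)) * (B' * z) =
      kfpE C.ε (C.μ₀ (x * f' g) + (j : ZMod q) * C.ω' g) * (B' * z) := by
    rw [kfpE_add C.eps_pow, kfpE_add C.eps_pow]
    calc kfpE C.ε (C.μ₀ (x * f g)) * kfpE C.ε (j : ZMod q) * (B' * z)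
        = kfpE C.ε (C.μ₀ (x * f g)) * (B' * z * kfpE C.ε (j : ZMod q)) := by ring
      _ = g B := by rw [← hB, e1]
      _ = _ := by rw [e2]; ring
  have e4 := kfpE_injective C.hε (mul_right_cancel₀ hB'z e3)
  rw [mul_sub, map_sub]
  linear_combination e4

/-! ### existence: Hilbert 90 -/

variable (C)

/-- the stabiliser of `ζ` -/
def stab : Subgroup G where
  carrier := {g | g C.ζ = C.ζ}
  one_mem' := rfl
  mul_mem' := by
    intro a b ha hb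
    show (a * b) C.ζ = C.ζ
    rw [AlgEquiv.mul_apply, hb, ha]
  inv_mem' := by
    intro a ha
    show a⁻¹ C.ζ = C.ζ
    conv_lhs => rw [← ha]
    exact a.symm_apply_apply _

theorem mem_stab {g : G} : g ∈ C.stab ↔ g C.ζ = C.ζ := Iff.rfl

instance stab_normal : C.stab.Normal := by
  refine ⟨fun n hn g => ?_⟩
  have := C.toW4Data.conj_zeta g⁻¹ n hn
  rw [inv_inv] at this
  exact this

theorem stab_open : IsOpenSub q C.stab := by
  classical
  refine ⟨{C.ζ}, fun γ => ?_⟩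
  rw [C.mem_stab]
  constructor
  · intro h x hx
    rw [Finset.mem_singleton] at hx
    rw [hx]
    exact h
  · intro h
    exact h C.ζ (Finset.mem_singleton_self _)

variable {C}

theorem exists_isKum {f : G → k} (hf : C.IsCoc f) (hsm : SmoothC1 q f) (x : k) :
    ∃ B : Ω, C.IsKum f x B := by
  have hq : q.Prime := Fact.out
  have : NeZero q := ⟨hq.ne_zero⟩
  obtain ⟨V, hVn, hVo, hVf⟩ := hsm
  have : V.Normal := hVn
  have hWn : (V ⊓ C.stab).Normal := inferInstance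
  have hH := h1Triv_of_open (isLocalGal_LG (q := q)) C.stab (V ⊓ C.stab) (hVo.inf C.stab_open)
    inf_le_right
  set εu : Ωˣ := Units.mk0 C.ε C.eps_ne_zero with hεu
  have hεuq : εu ^ q = 1 := Units.ext (by
    rw [Units.val_pow_eq_pow_val, Units.val_one]
    exact C.eps_pow)
  have hval : ∀ c : ZMod q, ((kfpE εu c : Ωˣ) : Ω) = kfpE C.ε c := fun c => by
    unfold kfpE
    rw [Units.val_pow_eq_pow_val]
    rfl
  obtain ⟨b, hb⟩ := hH (fun h => kfpE εu (C.μ₀ (x * f (h : G)))) (by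
      intro g h
      apply Units.ext
      show ((kfpE εu (C.μ₀ (x * f ((g : G) * (h : G)))) : Ωˣ) : Ω) =
        (g : G) ((kfpE εu (C.μ₀ (x * f (h : G))) : Ωˣ) : Ω) *
          ((kfpE εu (C.μ₀ (x * f (g : G))) : Ωˣ) : Ω)
      rw [hval, hval, hval, C.map_kfpE, ← kfpE_add C.eps_pow]
      congr 1
      rw [hf, C.ψ_of_fix g.2, mul_add, map_add]
      have : x * ((algebraMap (ZMod q) k) (C.ω' (g : G)) * f (h : G)) =
          C.ω' (g : G) • (x * f (h : G)) := by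
        rw [Algebra.smul_def]
        ring
      rw [this, map_smul, smul_eq_mul]
      ring)
    (by
      intro h v hv
      show kfpE εu (C.μ₀ (x * f ((h : G) * (v : G)))) = kfpE εu (C.μ₀ (x * f (h : G)))
      rw [hVf (h : G) (v : G) hv.1])
  refine ⟨(b : Ω), b.ne_zero, fun g hg => ?_⟩
  have hg' : g ∈ C.stab := hg
  have h1 : (⟨g, hg'⟩ : C.stab) • b / b = kfpE εu (C.μ₀ (x * f g)) := hb ⟨g, hg'⟩
  have h2 : (⟨g, hg'⟩ : C.stab) • b = kfpE εu (C.μ₀ (x * f g)) * b := by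
    rw [← h1, div_mul_cancel]
  have h3 := congrArg Units.val h2
  rw [Units.val_mul, hval] at h3
  exact h3

end W4Ctx

end Fermat.Agent.S56.W4A
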