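import Fermat.Agent.S56.W4.CountA.Count
import Fermat.Agent.S56.W4.CountA.Arith
import Fermat.Agent.S56.W3.SO.Kummer
import Fermat.Agent.S56.W3.TW.Gen
import Fermat.Agent.F4.Loc.Datum.Levels

/-!
# S56 / W4 / CountA / Main : `twZ_card_le_unram`

For `η ≠ 1` an unramified character of `Gal(ℚ̄_p/ℚ_p)` with values in `kˣ`, there are at most
`|k|²` level-constant cocycles of `k(ω η)`.
-/

set_option autoImplicit false

open Polynomial IntermediateField
open scoped NNReal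

namespace Fermat.Agent.S56.W4A

open Fermat.Agent.S56.SO ExtCitation Fermat.Agent.F4 Fermat.Agent.F4.Loc

section Generic

variable {q : ℕ} [Fact q.Prime]

/-- `φ ^ n` fixes `ζ` only if `d ∣ n` -/
theorem W4Data.dvd_of_phi_pow_zeta (D : W4Data q) (n : ℕ) (h : (D.φ ^ n) D.ζ = D.ζ) :
    D.d ∣ n := by
  have hq : q.Prime := Fact.out
  rw [D.phi_pow_zeta] at h
  have h1 : D.ζ ^ (q ^ n - 1) = 1 := by
    have hpos : 0 < q ^ n := pow_pos hq.pos n
    have e : q ^ n = (q ^ n - 1) + 1 := by omega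
    rw [e, pow_succ] at h
    exact mul_right_cancel₀ (D.hζ'.ne_zero D.m_pos.ne') (by rw [h, one_mul])
  have h2 : D.m ∣ q ^ n - 1 := D.hζ'.dvd_of_pow_eq_one _ h1
  have h3 : q ^ n ≡ 1 [MOD D.m] :=
    ((Nat.modEq_iff_dvd' (Nat.one_le_pow _ _ hq.pos)).2 h2).symm
  have h4 : q ^ D.d ≡ 1 [MOD D.m] := by
    rw [← D.m_add_one]
    exact Nat.add_modEq_left
  have h5 : q ^ (n % D.d) ≡ 1 [MOD D.m] := by
    have e : n = D.d * (n / D.d) + n % D.d := (Nat.div_add_mod n D.d).symm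
    rw [e, pow_add, pow_mul] at h3
    have h6 : (q ^ D.d) ^ (n / D.d) ≡ 1 [MOD D.m] := by simpa using h4.pow (n / D.d)
    have h7 := h6.mul_right (q ^ (n % D.d))
    rw [one_mul] at h7
    exact h7.symm.trans h3
  have hj : n % D.d < D.d := Nat.mod_lt _ D.hd
  have h8 : q ^ (n % D.d) < q ^ D.d := Nat.pow_lt_pow_right hq.one_lt hj
  have h9 : D.m ∣ q ^ (n % D.d) - 1 :=
    (Nat.modEq_iff_dvd' (Nat.one_le_pow _ _ hq.pos)).1 h5.symm
  have h8' : q ^ (n % D.d) < D.m + 1 := by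
    rw [D.m_add_one]
    exact h8
  have hpos' : 0 < q ^ (n % D.d) := pow_pos hq.pos _
  have h10 : q ^ (n % D.d) - 1 = 0 :=
    Nat.eq_zero_of_dvd_of_lt h9
      (Nat.lt_of_lt_of_le (Nat.sub_lt hpos' one_pos) (Nat.lt_succ_iff.1 h8'))
  have h11 : q ^ (n % D.d) = 1 := by
    generalize q ^ (n % D.d) = A at hpos' h10
    omega
  have h12 : n % D.d = 0 := by
    by_contra hne
    have := Nat.one_lt_pow hne hq.one_lt
    rw [h11] at this
    exact lt_irrefl _ this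
  exact Nat.dvd_of_mod_eq_zero h12

/-- an automorphism acting trivially modulo the maximal ideal fixes `ζ` -/
theorem W4Data.fix_of_congr (D : W4Data q) (τ : PadicAlgCl q ≃ₐ[ℚ_[q]] PadicAlgCl q)
    (h : ∀ x : PadicAlgCl q, ‖x‖ ≤ 1 → ‖τ x - x‖ < 1) : τ D.ζ = D.ζ := by
  refine w4a_root_eq_of_close D.m_coprime D.hζ' ?_ D.zeta_pow (h D.ζ D.norm_zeta.le)
  rw [← map_pow, D.zeta_pow, map_one]

end Generic

section Wrapper

variable {k : Type} [Field k] [Finite k]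

/-- **W4-A.**  For a nontrivial unramified character `η`, there are at most `|k|²` level-constant
cocycles of `k(ω η)`. -/
theorem twZ_card_le_unram (p : ℕ) [Fact p.Prime] (hp2 : p ≠ 2)
    (hpk : (p : k) = 0) (ω : Gp p → k) (hω : IsCycLoc p ω) (η : Gp p →* kˣ)
    (hlev : ∃ U ∈ levelsAll.sets, U.comap (locp p) ≤ η.ker)
    (hunr : ∀ τ ∈ locInertia (pPrime p), η τ = 1) (hne : ∃ γ, η γ ≠ 1) :
    Finite (twZ p (fun γ => ω γ * (η γ : k))) ∧
      Nat.card (twZ p (fun γ => ω γ * (η γ : k))) ≤ Nat.card k ^ 2 := by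
  classical
  have hp : p.Prime := Fact.out
  have hchar : CharP k p := sok3_charP p hpk
  let alg : Algebra (ZMod p) k := ZMod.algebra k p
  -- Frobenius
  obtain ⟨φ, hφF, hgen⟩ := Fermat.Agent.S56.TWGen.exists_frob_gen (pPrime p)
  obtain ⟨U₀, hU₀, hU₀η⟩ := hlev
  have hηpow : ∀ g : Gp p, ∃ n : ℕ, η g = η φ ^ n := by
    intro g
    obtain ⟨n, τ, hτ, hmem⟩ := hgen U₀ hU₀ g
    have h1 : g⁻¹ * (φ ^ n * τ) ∈ η.ker := hU₀η hmem
    rw [MonoidHom.mem_ker, map_mul, map_inv, map_mul, map_pow, hunr τ hτ, mul_one] at h1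
    exact ⟨n, inv_mul_eq_one.1 h1⟩
  have hlam : η φ ≠ 1 := by
    intro h1
    obtain ⟨γ, hγ⟩ := hne
    obtain ⟨n, hn⟩ := hηpow γ
    rw [h1, one_pow] at hn
    exact hγ hn
  have hdpos : 0 < orderOf (η φ) := orderOf_pos _
  -- the root of unity `ζ`
  have hmpos : 0 < ((pPrime p : Nat.Primes) : ℕ) ^ orderOf (η φ) - 1 := by
    have h1 : ((pPrime p : Nat.Primes) : ℕ) ^ 1 ≤ ((pPrime p : Nat.Primes) : ℕ) ^ orderOf (η φ) :=
      Nat.pow_le_pow_right hp.pos hdpos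
    have h2 : 2 ≤ ((pPrime p : Nat.Primes) : ℕ) := hp.two_le
    rw [pow_one] at h1
    omega
  have hmne : NeZero (((((pPrime p : Nat.Primes) : ℕ) ^ orderOf (η φ) - 1 : ℕ) : ℕ) :
      PadicAlgCl ((pPrime p : Nat.Primes) : ℕ)) := ⟨Nat.cast_ne_zero.2 hmpos.ne'⟩
  obtain ⟨ζ, hζ⟩ := HasEnoughRootsOfUnity.exists_primitiveRoot
    (PadicAlgCl ((pPrime p : Nat.Primes) : ℕ)) (((pPrime p : Nat.Primes) : ℕ) ^ orderOf (η φ) - 1)
  let D : W4Data ((pPrime p : Nat.Primes) : ℕ) :=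
    { d := orderOf (η φ)
      hd := hdpos
      ζ := ζ
      hζ := hζ
      φ := φ
      hφ := fun x hx => w4a_frob_congr p φ hφF x hx }
  -- inertia fixes `ζ`
  have hIζ : ∀ τ : Gp p, τ ∈ locInertia (pPrime p) → D.ζ = (show PadicAlgCl ((pPrime p : Nat.Primes) : ℕ)
      ≃ₐ[ℚ_[((pPrime p : Nat.Primes) : ℕ)]] PadicAlgCl ((pPrime p : Nat.Primes) : ℕ) from τ) D.ζ :=
    fun τ hτ => (D.fix_of_congr τ (fun x hx => w4a_inertia_congr p τ hτ x hx)).symm
  -- the stabiliser of `ζ` is open, hence contains a level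
  have hopen : IsOpenSub ((pPrime p : Nat.Primes) : ℕ) (MulAction.stabilizer (Gp p) ζ) := by
    refine ⟨{ζ}, fun γ => ?_⟩
    rw [MulAction.mem_stabilizer_iff]
    constructor
    · intro h x hx
      rw [Finset.mem_singleton] at hx
      rw [hx]
      exact h
    · intro h
      exact h ζ (Finset.mem_singleton_self _)
  obtain ⟨V, hV, hVle⟩ := exists_locLevelsAll_le (pPrime p) hopen
  obtain ⟨W, hW, rfl⟩ := hV
  obtain ⟨U', hU', hU'le⟩ := levelsAll.directed U₀ hU₀ W hW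
  have hηfix : ∀ h : Gp p, h • ζ = ζ → η h = 1 := by
    intro h hh
    obtain ⟨n, τ, hτ, hmem⟩ := hgen U' hU' h
    have hmem' := hU'le hmem
    have h1 : h⁻¹ * (φ ^ n * τ) ∈ η.ker := hU₀η hmem'.1
    have h2 : h⁻¹ * (φ ^ n * τ) ∈ MulAction.stabilizer (Gp p) ζ := hVle hmem'.2
    rw [MonoidHom.mem_ker, map_mul, map_inv, map_mul, map_pow, hunr τ hτ, mul_one] at h1
    have h3 : η h = η φ ^ n := inv_mul_eq_one.1 h1
    rw [h3]
    rw [MulAction.mem_stabilizer_iff, mul_smul, mul_smul] at h2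
    have h4 : τ • ζ = ζ := (hIζ τ hτ).symm
    rw [h4] at h2
    have h5 : φ ^ n • ζ = ζ := by
      have := congrArg (fun x => h • x) h2
      simp only [smul_inv_smul] at this
      rw [this, hh]
    have h6 : orderOf (η φ) ∣ n := D.dvd_of_phi_pow_zeta n h5
    exact orderOf_dvd_iff_pow_eq_one.1 h6
  -- the `p`-th root of unity and the cyclotomic character
  obtain ⟨εu, hεprim, hεact⟩ := kfp_exists_zeta p
  let alg' : Algebra (ZMod ((pPrime p : Nat.Primes) : ℕ)) k := alg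
  obtain ⟨μ₀, hμ₀⟩ : ∃ μ₀ : k →ₗ[ZMod ((pPrime p : Nat.Primes) : ℕ)]
      ZMod ((pPrime p : Nat.Primes) : ℕ), μ₀ ≠ 0 := by
    by_contra hcon
    push Not at hcon
    have h1 := (Module.forall_dual_apply_eq_zero_iff (ZMod ((pPrime p : Nat.Primes) : ℕ))
      (1 : k)).1 (fun f => by rw [hcon f]; rfl)
    exact one_ne_zero h1
  let C : W4Ctx ((pPrime p : Nat.Primes) : ℕ) k :=
    { toW4Data := D
      ε := (εu : PadicAlgCl ((pPrime p : Nat.Primes) : ℕ))
      hε := IsPrimitiveRoot.coe_units_iff.2 hεprim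
      ω := (cycloChar p).comp (locp p)
      hω := fun γ =>
        (primeLocal_smul_units (pPrime p) γ εu).symm.trans
          ((congrArg Units.val (hεact γ)).trans (Units.val_pow_eq_pow_val εu _))
      η := η
      hη := hηfix
      μ₀ := μ₀ }
  have hωC : ∀ γ : Gp p, C.ω' γ = cycLoc p γ := fun γ => rfl
  have hψC : ∀ γ : (PadicAlgCl ((pPrime p : Nat.Primes) : ℕ)
      ≃ₐ[ℚ_[((pPrime p : Nat.Primes) : ℕ)]] PadicAlgCl ((pPrime p : Nat.Primes) : ℕ)),
      C.ψ γ = ω γ * (η γ : k) := by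
    intro γ
    rw [sok3_omega_eq p ω hω γ]
    rfl
  have hL : C.L ≠ algebraMap (ZMod ((pPrime p : Nat.Primes) : ℕ)) k C.w := by
    intro h1
    have h2 : algebraMap (ZMod ((pPrime p : Nat.Primes) : ℕ)) k C.w * ((η φ⁻¹ : kˣ) : k)
        = algebraMap (ZMod ((pPrime p : Nat.Primes) : ℕ)) k C.w * 1 := by
      rw [mul_one]
      exact h1
    have h3 : algebraMap (ZMod ((pPrime p : Nat.Primes) : ℕ)) k C.w ≠ 0 := by
      rw [Ne, map_eq_zero_iff _ (algebraMap (ZMod ((pPrime p : Nat.Primes) : ℕ)) k).injective]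
      exact C.ω'_ne_zero _
    have h4 : ((η φ⁻¹ : kˣ) : k) = 1 := mul_left_cancel₀ h3 h2
    have h5 : η φ⁻¹ = 1 := Units.ext h4
    rw [map_inv, inv_eq_one] at h5
    exact hlam h5
  obtain ⟨h₀, hh₀I, hh₀c⟩ := w4a_exists_inertia_cyc p hp2
  have hh₀ : (show PadicAlgCl ((pPrime p : Nat.Primes) : ℕ)
      ≃ₐ[ℚ_[((pPrime p : Nat.Primes) : ℕ)]] PadicAlgCl ((pPrime p : Nat.Primes) : ℕ) from h₀) C.ζ
      = C.ζ := (hIζ h₀ hh₀I).symm
  obtain ⟨T, hT, Φ, hcard, hinj⟩ := C.count hp2 hL hμ₀ h₀ hh₀ hh₀c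
  -- the cocycles of the statement are cocycles of the context
  let Ψ : twZ p (fun γ => ω γ * (η γ : k)) →
      {f : (PadicAlgCl ((pPrime p : Nat.Primes) : ℕ)
        ≃ₐ[ℚ_[((pPrime p : Nat.Primes) : ℕ)]] PadicAlgCl ((pPrime p : Nat.Primes) : ℕ)) → k //
        SmoothC1 ((pPrime p : Nat.Primes) : ℕ) f ∧ C.IsCoc f} := fun f =>
    ⟨f.1, by
      obtain ⟨⟨V, hV, hVf⟩, hcoc⟩ := f.2
      refine ⟨⟨V, (locLevelsAll (pPrime p)).normal V hV, isOpenSub_locLevelsAll (pPrime p) hV,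
        hVf⟩, fun σ τ => ?_⟩
      rw [hψC]
      exact hcoc σ τ⟩
  have hΨ : Function.Injective (fun f => Φ (Ψ f)) := by
    intro f f' hff
    have h1 : Ψ f = Ψ f' := hinj hff
    have h2 : (Ψ f).1 = (Ψ f').1 := congrArg Subtype.val h1
    exact Subtype.ext h2
  have hfin : Finite (twZ p (fun γ => ω γ * (η γ : k))) := Finite.of_injective _ hΨ
  exact ⟨hfin, (Nat.card_le_card_of_injective _ hΨ).trans hcard⟩

end Wrapper

end Fermat.Agent.S56.W4A
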