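import Fermat.Agent.S56.W4.CountA.Unr

/-!
# S56 / W4 / CountA / Theta : the map `θ(u) = (u ^ m - 1) / q` on the units of `ℚ_q(ζ_m)`

`m = q ^ d - 1`, `ζ` a primitive `m`-th root of unity of `Ω = PadicAlgCl q`, `φ` a Frobenius
(`‖φ x - x ^ q‖ < 1` for integral `x`).  For the fixed units `u` (`W4U`):
* `‖θ u‖ ≤ 1`;  `θ (u v) ≡ θ u + θ v`;  `θ (w ^ q) ≡ 0`;  `θ (φ u) ≡ (θ u) ^ q`  (mod `𝔪`);
* `θ u ≡ 0` implies `u = w ^ q`, `w` fixed.
-/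

set_option autoImplicit false

open Polynomial IntermediateField
open scoped NNReal

namespace Fermat.Agent.S56.W4A

open Fermat.Agent.F4.Loc

variable (q : ℕ) [Fact q.Prime]

local notation "Ω" => PadicAlgCl q

/-- The data: the degree `d`, a primitive root of unity of order `q ^ d - 1` and a Frobenius. -/
structure W4Data where
  d : ℕ
  hd : 0 < d
  ζ : Ω
  hζ : IsPrimitiveRoot ζ (q ^ d - 1)
  φ : Ω ≃ₐ[ℚ_[q]] Ω
  hφ : ∀ x : Ω, ‖x‖ ≤ 1 → ‖φ x - x ^ q‖ < 1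

variable {q}

namespace W4Data

variable (D : W4Data q)

/-- the order of the root of unity -/
def m : ℕ := q ^ D.d - 1

theorem m_add_one : D.m + 1 = q ^ D.d := by
  have hq : q.Prime := Fact.out
  have : 0 < q ^ D.d := pow_pos hq.pos _
  unfold m
  omega

theorem m_pos : 0 < D.m := by
  have hq : q.Prime := Fact.out
  have h1 : q ^ 1 ≤ q ^ D.d := Nat.pow_le_pow_right hq.pos D.hd
  have := hq.two_le
  have := D.m_add_one
  rw [pow_one] at h1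
  omega

theorem m_coprime : Nat.Coprime D.m q := by
  have hq : q.Prime := Fact.out
  rw [Nat.coprime_comm, Nat.Prime.coprime_iff_not_dvd hq]
  intro h
  have h2 : q ∣ q ^ D.d := dvd_pow_self q D.hd.ne'
  rw [← D.m_add_one] at h2
  have h3 : q ∣ 1 := (Nat.dvd_add_right h).1 h2
  exact hq.one_lt.ne' (Nat.dvd_one.1 h3)

theorem hζ' : IsPrimitiveRoot D.ζ D.m := D.hζ

theorem zeta_pow : D.ζ ^ D.m = 1 := D.hζ.pow_eq_one

theorem norm_zeta : ‖D.ζ‖ = 1 := by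
  have h : ‖D.ζ‖ ^ D.m = 1 := by rw [← norm_pow, D.zeta_pow, norm_one]
  exact (pow_eq_one_iff_of_nonneg (norm_nonneg _) D.m_pos.ne').1 h

/-- every automorphism maps `ζ` to a power of `ζ` -/
theorem map_zeta (g : Ω ≃ₐ[ℚ_[q]] Ω) : ∃ i : ℕ, g D.ζ = D.ζ ^ i := by
  have : NeZero D.m := ⟨D.m_pos.ne'⟩
  have h : (g D.ζ) ^ D.m = 1 := by rw [← map_pow, D.zeta_pow, map_one]
  obtain ⟨i, -, hi⟩ := D.hζ'.eq_pow_of_pow_eq_one h
  exact ⟨i, hi.symm⟩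

/-- the stabiliser of `ζ` is normal -/
theorem conj_zeta (g σ : Ω ≃ₐ[ℚ_[q]] Ω) (hσ : σ D.ζ = D.ζ) : (g⁻¹ * σ * g) D.ζ = D.ζ := by
  obtain ⟨i, hi⟩ := D.map_zeta g
  rw [AlgEquiv.mul_apply, AlgEquiv.mul_apply, hi, map_pow, hσ, ← hi]
  exact g.symm_apply_apply _

theorem fixed_map {x : Ω} (hx : W4Fixed q D.ζ x) (g : Ω ≃ₐ[ℚ_[q]] Ω) : W4Fixed q D.ζ (g x) := by
  intro σ hσ
  have h := hx (g⁻¹ * σ * g) (D.conj_zeta g σ hσ)
  rw [AlgEquiv.mul_apply, AlgEquiv.mul_apply] at h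
  have h2 := congrArg g h
  rw [show g (g⁻¹ (σ (g x))) = σ (g x) from g.apply_symm_apply _] at h2
  exact h2

/-- `φ ζ = ζ ^ q` -/
theorem phi_zeta : D.φ D.ζ = D.ζ ^ q := by
  refine w4a_root_eq_of_close D.m_coprime D.hζ' ?_ ?_ (D.hφ D.ζ D.norm_zeta.le)
  · rw [← map_pow, D.zeta_pow, map_one]
  · rw [← pow_mul, mul_comm, pow_mul, D.zeta_pow, one_pow]

theorem phi_pow_zeta (n : ℕ) : (D.φ ^ n) D.ζ = D.ζ ^ (q ^ n) := by
  induction n with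
  | zero => simp
  | succ n ih =>
    rw [pow_succ, AlgEquiv.mul_apply, D.phi_zeta, map_pow, ih, ← pow_mul, ← pow_succ]

theorem phi_d_zeta : (D.φ ^ D.d) D.ζ = D.ζ := by
  rw [D.phi_pow_zeta, ← D.m_add_one, pow_succ, D.zeta_pow, one_mul]

/-- powers of the Frobenius -/
theorem phi_pow_congr (n : ℕ) {x : Ω} (hx : ‖x‖ ≤ 1) : ‖(D.φ ^ n) x - x ^ (q ^ n)‖ < 1 := by
  induction n with
  | zero => simp
  | succ n ih =>
    have e : (D.φ ^ (n + 1)) x - x ^ (q ^ (n + 1)) =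
        D.φ ((D.φ ^ n) x - x ^ (q ^ n)) + (D.φ (x ^ (q ^ n)) - (x ^ (q ^ n)) ^ q) := by
      rw [pow_succ' D.φ n, AlgEquiv.mul_apply, map_sub, pow_succ q n, pow_mul]
      ring
    rw [e]
    refine lt_of_le_of_lt (w4a_norm_add_le q _ _) (max_lt ?_ ?_)
    · rw [w4a_norm_map]
      exact ih
    · apply D.hφ
      rw [norm_pow]
      exact pow_le_one₀ (norm_nonneg _) hx

/-- the fixed units -/
def U (u : Ω) : Prop := W4Fixed q D.ζ u ∧ ‖u‖ = 1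

variable {D}

theorem U.ne_zero {u : Ω} (hu : D.U u) : u ≠ 0 := fun h => by
  have := hu.2
  rw [h, norm_zero] at this
  exact zero_ne_one this

variable (D) in
theorem U_one : D.U 1 := ⟨w4Fixed_one _, norm_one⟩

theorem U.mul {u v : Ω} (hu : D.U u) (hv : D.U v) : D.U (u * v) :=
  ⟨hu.1.mul hv.1, by rw [norm_mul, hu.2, hv.2, one_mul]⟩

theorem U.pow {u : Ω} (hu : D.U u) (n : ℕ) : D.U (u ^ n) :=
  ⟨hu.1.pow n, by rw [norm_pow, hu.2, one_pow]⟩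

theorem U.inv {u : Ω} (hu : D.U u) : D.U u⁻¹ :=
  ⟨hu.1.inv, by rw [norm_inv, hu.2, inv_one]⟩

theorem U.div {u v : Ω} (hu : D.U u) (hv : D.U v) : D.U (u / v) :=
  ⟨hu.1.div hv.1, by rw [norm_div, hu.2, hv.2, div_one]⟩

theorem U.map {u : Ω} (hu : D.U u) (g : Ω ≃ₐ[ℚ_[q]] Ω) : D.U (g u) :=
  ⟨D.fixed_map hu.1 g, by rw [w4a_norm_map, hu.2]⟩

variable (D) in
theorem U_prod {ι : Type*} (s : Finset ι) (f : ι → Ω) (h : ∀ i ∈ s, D.U (f i)) :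
    D.U (∏ i ∈ s, f i) := by
  classical
  induction s using Finset.induction_on with
  | empty => simpa using D.U_one
  | insert a s ha ih =>
    rw [Finset.prod_insert ha]
    exact (h a (Finset.mem_insert_self a s)).mul
      (ih fun i hi => h i (Finset.mem_insert_of_mem hi))

/-- `u ^ m ≡ 1` for the fixed units -/
theorem U.pow_m_sub_one {u : Ω} (hu : D.U u) : ‖u ^ D.m - 1‖ ≤ (q : ℝ)⁻¹ := by
  have h1 : (D.φ ^ D.d) u = u := hu.1 _ D.phi_d_zeta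
  have h2 := D.phi_pow_congr D.d hu.2.le
  rw [h1, ← D.m_add_one] at h2
  have e : u - u ^ (D.m + 1) = -(u * (u ^ D.m - 1)) := by ring
  rw [e, norm_neg, norm_mul, hu.2, one_mul] at h2
  exact W4Fixed.norm_le_of_lt D.m_coprime D.hζ' ((hu.1.pow _).sub (w4Fixed_one _)) h2

variable (D)

/-- `θ u = (u ^ m - 1) / q` -/
noncomputable def θ (u : Ω) : Ω := (u ^ D.m - 1) / q

theorem q_mul_θ (u : Ω) : (q : Ω) * D.θ u = u ^ D.m - 1 := by
  unfold θ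
  rw [mul_div_cancel₀ _ (w4a_q_ne_zero q)]

theorem θ_fixed {u : Ω} (hu : W4Fixed q D.ζ u) : W4Fixed q D.ζ (D.θ u) :=
  ((hu.pow _).sub (w4Fixed_one _)).div (w4Fixed_natCast _ q)

variable {D} in
theorem U.norm_θ {u : Ω} (hu : D.U u) : ‖D.θ u‖ ≤ 1 := by
  unfold θ
  rw [norm_div, w4a_norm_q, div_le_iff₀ (inv_pos.2 (w4a_q_pos q)), one_mul]
  exact hu.pow_m_sub_one

theorem θ_one : D.θ 1 = 0 := by
  unfold θ
  rw [one_pow, sub_self, zero_div]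

theorem θ_map (g : Ω ≃ₐ[ℚ_[q]] Ω) (u : Ω) : D.θ (g u) = g (D.θ u) := by
  unfold θ
  rw [map_div₀, map_sub, map_pow, map_one, map_natCast]

variable {D}

/-- `θ (u v) ≡ θ u + θ v` -/
theorem U.θ_mul {u v : Ω} (hu : D.U u) (hv : D.U v) :
    ‖D.θ (u * v) - (D.θ u + D.θ v)‖ < 1 := by
  have e : D.θ (u * v) - (D.θ u + D.θ v) = (q : Ω) * (D.θ u * D.θ v) := by
    have h1 := D.q_mul_θ u
    have h2 := D.q_mul_θ v
    have h3 := D.q_mul_θ (u * v)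
    have hq0 := w4a_q_ne_zero q
    apply mul_left_cancel₀ hq0
    rw [mul_sub, mul_add, h3, h1, h2]
    have : (q : Ω) * ((q : Ω) * (D.θ u * D.θ v)) = ((q : Ω) * D.θ u) * ((q : Ω) * D.θ v) := by
      ring
    rw [this, h1, h2]
    ring
  rw [e, norm_mul, norm_mul, w4a_norm_q]
  have h1 := hu.norm_θ
  have h2 := hv.norm_θ
  calc (q : ℝ)⁻¹ * (‖D.θ u‖ * ‖D.θ v‖) ≤ (q : ℝ)⁻¹ * (1 * 1) := by
        apply mul_le_mul_of_nonneg_left _ (inv_nonneg.2 (w4a_q_pos q).le)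
        exact mul_le_mul h1 h2 (norm_nonneg _) zero_le_one
    _ < 1 := by
        rw [mul_one, mul_one]
        exact inv_lt_one_of_one_lt₀ (w4a_one_lt_q q)

end W4Data

/-! ### congruences modulo the maximal ideal -/

/-- `a ≡ b` modulo the maximal ideal of `Ω` -/
def W4Cg (a b : Ω) : Prop := ‖a - b‖ < 1

theorem W4Cg.refl (a : Ω) : W4Cg a a := by
  unfold W4Cg
  rw [sub_self, norm_zero]
  exact one_pos

theorem W4Cg.of_eq {a b : Ω} (h : a = b) : W4Cg a b := h ▸ W4Cg.refl a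

theorem W4Cg.symm {a b : Ω} (h : W4Cg a b) : W4Cg b a := by
  unfold W4Cg at h ⊢
  rwa [norm_sub_rev]

theorem W4Cg.trans {a b c : Ω} (h : W4Cg a b) (h' : W4Cg b c) : W4Cg a c := by
  unfold W4Cg at h h' ⊢
  have e : a - c = (a - b) + (b - c) := by ring
  rw [e]
  exact lt_of_le_of_lt (w4a_norm_add_le q _ _) (max_lt h h')

theorem W4Cg.add {a b c d : Ω} (h : W4Cg a b) (h' : W4Cg c d) : W4Cg (a + c) (b + d) := by
  unfold W4Cg at h h' ⊢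
  have e : a + c - (b + d) = (a - b) + (c - d) := by ring
  rw [e]
  exact lt_of_le_of_lt (w4a_norm_add_le q _ _) (max_lt h h')

theorem W4Cg.sub {a b c d : Ω} (h : W4Cg a b) (h' : W4Cg c d) : W4Cg (a - c) (b - d) := by
  unfold W4Cg at h h' ⊢
  have e : a - c - (b - d) = (a - b) - (c - d) := by ring
  rw [e]
  exact lt_of_le_of_lt (w4a_norm_sub_le q _ _) (max_lt h h')

theorem W4Cg.mul_left {a b : Ω} (h : W4Cg a b) {c : Ω} (hc : ‖c‖ ≤ 1) : W4Cg (c * a) (c * b) := by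
  unfold W4Cg at h ⊢
  rw [← mul_sub, norm_mul]
  exact lt_of_le_of_lt (mul_le_of_le_one_left (norm_nonneg _) hc) h

theorem W4Cg.pow {a b : Ω} (h : W4Cg a b) (ha : ‖a‖ ≤ 1) (hb : ‖b‖ ≤ 1) (n : ℕ) :
    W4Cg (a ^ n) (b ^ n) :=
  lt_of_le_of_lt (w4a_norm_pow_sub_pow_le q ha hb n) h

theorem W4Cg.norm_le {a b : Ω} (h : W4Cg a b) (hb : ‖b‖ ≤ 1) : ‖a‖ ≤ 1 := by
  have e : a = (a - b) + b := by ring
  rw [e]
  exact (w4a_norm_add_le q _ _).trans (max_le h.le hb)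

theorem W4Cg.sum {ι : Type*} (s : Finset ι) {f g : ι → Ω} (h : ∀ i ∈ s, W4Cg (f i) (g i)) :
    W4Cg (∑ i ∈ s, f i) (∑ i ∈ s, g i) := by
  classical
  induction s using Finset.induction_on with
  | empty => simpa using W4Cg.refl (0 : Ω)
  | insert a s ha ih =>
    rw [Finset.sum_insert ha, Finset.sum_insert ha]
    exact (h a (Finset.mem_insert_self a s)).add
      (ih fun i hi => h i (Finset.mem_insert_of_mem hi))

theorem w4Cg_zero_of_norm_lt {a : Ω} (h : ‖a‖ < 1) : W4Cg a 0 := by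
  unfold W4Cg
  rwa [sub_zero]

theorem W4Cg.norm_lt {a : Ω} (h : W4Cg a 0) : ‖a‖ < 1 := by
  unfold W4Cg at h
  rwa [sub_zero] at h

theorem w4a_norm_sum_le {ι : Type*} (s : Finset ι) (f : ι → Ω) (h : ∀ i ∈ s, ‖f i‖ ≤ 1) :
    ‖∑ i ∈ s, f i‖ ≤ 1 :=
  IsUltrametricDist.norm_sum_le_of_forall_le_of_nonneg zero_le_one h

namespace W4Data

variable {D : W4Data q}

theorem U.θ_mul' {u v : Ω} (hu : D.U u) (hv : D.U v) :
    W4Cg (D.θ (u * v)) (D.θ u + D.θ v) := hu.θ_mul hv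

/-- `θ (u ^ n) ≡ n θ u` -/
theorem U.θ_pow {u : Ω} (hu : D.U u) (n : ℕ) : W4Cg (D.θ (u ^ n)) ((n : Ω) * D.θ u) := by
  induction n with
  | zero =>
    rw [pow_zero, D.θ_one, Nat.cast_zero, zero_mul]
    exact W4Cg.refl 0
  | succ n ih =>
    rw [pow_succ, Nat.cast_succ, add_mul, one_mul]
    exact ((hu.pow n).θ_mul' hu).trans (ih.add (W4Cg.refl _))

variable (D) in
/-- `θ (∏ f i ^ e i) ≡ ∑ e i θ (f i)` -/
theorem θ_prod {ι : Type*} (s : Finset ι) (f : ι → Ω) (e : ι → ℕ) (h : ∀ i ∈ s, D.U (f i)) :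
    W4Cg (D.θ (∏ i ∈ s, f i ^ e i)) (∑ i ∈ s, (e i : Ω) * D.θ (f i)) := by
  classical
  induction s using Finset.induction_on with
  | empty =>
    rw [Finset.prod_empty, Finset.sum_empty, D.θ_one]
    exact W4Cg.refl 0
  | insert a s ha ih =>
    rw [Finset.prod_insert ha, Finset.sum_insert ha]
    have h1 : D.U (f a ^ e a) := (h a (Finset.mem_insert_self a s)).pow _
    have h2 : D.U (∏ i ∈ s, f i ^ e i) :=
      D.U_prod s _ fun i hi => (h i (Finset.mem_insert_of_mem hi)).pow _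
    exact (h1.θ_mul' h2).trans
      (((h a (Finset.mem_insert_self a s)).θ_pow _).add
        (ih fun i hi => h i (Finset.mem_insert_of_mem hi)))

/-- `θ (w ^ q) ≡ 0` -/
theorem U.θ_pow_q {w : Ω} (hw : D.U w) : W4Cg (D.θ (w ^ q)) 0 := by
  refine (hw.θ_pow q).trans (w4Cg_zero_of_norm_lt ?_)
  rw [norm_mul, w4a_norm_q]
  calc (q : ℝ)⁻¹ * ‖D.θ w‖ ≤ (q : ℝ)⁻¹ * 1 :=
        mul_le_mul_of_nonneg_left hw.norm_θ (inv_nonneg.2 (w4a_q_pos q).le)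
    _ < 1 := by
        rw [mul_one]
        exact inv_lt_one_of_one_lt₀ (w4a_one_lt_q q)

/-- `θ (φ ^ j u) ≡ (θ u) ^ (q ^ j)` -/
theorem U.θ_phi_pow {u : Ω} (hu : D.U u) (j : ℕ) :
    W4Cg (D.θ ((D.φ ^ j) u)) (D.θ u ^ (q ^ j)) := by
  rw [D.θ_map]
  exact D.phi_pow_congr j hu.norm_θ

/-- the kernel of `θ` consists of `q`-th powers -/
theorem U.exists_pow_eq (hq2 : q ≠ 2) {u : Ω} (hu : D.U u) (h : W4Cg (D.θ u) 0) :
    ∃ w : Ω, D.U w ∧ w ^ q = u := by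
  have hq : q.Prime := Fact.out
  have hqi0 : (0 : ℝ) < (q : ℝ)⁻¹ := inv_pos.2 (w4a_q_pos q)
  have h1 : ‖D.θ u‖ ≤ (q : ℝ)⁻¹ :=
    W4Fixed.norm_le_of_lt D.m_coprime D.hζ' (D.θ_fixed hu.1) h.norm_lt
  have h2 : ‖u ^ D.m - 1‖ ≤ ((q : ℝ)⁻¹) ^ 2 := by
    rw [← D.q_mul_θ, norm_mul, w4a_norm_q, pow_two]
    exact mul_le_mul_of_nonneg_left h1 hqi0.le
  obtain ⟨w₁, hw₁, hw₁u⟩ := W4Fixed.exists_pow_eq hq2 D.m_pos D.hζ' (hu.1.pow D.m) h2
  have hw₁n : ‖w₁‖ = 1 := by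
    have h3 : ‖w₁‖ ^ q = 1 := by rw [← norm_pow, hw₁u, norm_pow, hu.2, one_pow]
    exact (pow_eq_one_iff_of_nonneg (norm_nonneg _) hq.ne_zero).1 h3
  have hw₁U : D.U w₁ := ⟨hw₁, hw₁n⟩
  obtain ⟨d', hd'⟩ : ∃ d', D.d = d' + 1 := ⟨D.d - 1, by have := D.hd; omega⟩
  refine ⟨u ^ (q ^ d') / w₁, (hu.pow _).div hw₁U, ?_⟩
  rw [div_pow, hw₁u, ← pow_mul, ← pow_succ, ← hd', ← D.m_add_one, pow_succ]
  exact mul_div_cancel_left₀ u (pow_ne_zero _ hu.ne_zero)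

end W4Data

end Fermat.Agent.S56.W4A
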