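import Fermat.Agent.S56.W4.CountA.Dense
import Fermat.Agent.F4.Loc.Unram2
import Fermat.Agent.F4.Loc.Base
import Fermat.Agent.F4.Loc.KummerFin

/-!
# S56 / W4 / CountA / Unr : the unramified fields `ℚ_q(ζ)`, `ζ` a root of unity of order prime to `q`

`Ω = PadicAlgCl q`, `ζ ∈ Ω` a primitive `m`-th root of unity, `q ∤ m`.  An element `x` is *fixed*
if `σ x = x` for all `σ ∈ Gal(Ω/ℚ_q)` with `σ ζ = ζ` (`W4Fixed q ζ x`), i.e. `x ∈ ℚ_q(ζ)`.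

* `w4a_root_eq_of_close` : distinct `m`-th roots of unity are incongruent;
* `W4Fixed.norm_eq` : the norm of a fixed `x ≠ 0` is a power of `q` (`F4.Loc.unram_val`);
* `W4Fixed.exists_pow_eq` : a fixed `u` with `‖u - 1‖ ≤ q⁻²` is the `q`-th power of a fixed
  element (`q` odd).
-/

set_option autoImplicit false

open Polynomial IntermediateField
open scoped NNReal

namespace Fermat.Agent.S56.W4A

open Fermat.Agent.F4.Loc

variable (q : ℕ) [Fact q.Prime]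

local notation "Ω" => PadicAlgCl q

/-- `x` is fixed by the stabiliser of `ζ`. -/
def W4Fixed (ζ x : Ω) : Prop := ∀ σ : Ω ≃ₐ[ℚ_[q]] Ω, σ ζ = ζ → σ x = x

variable {q}

theorem W4Fixed.mem_adjoin {ζ x : Ω} (h : W4Fixed q ζ x) : x ∈ ℚ_[q]⟮ζ⟯ := by
  rw [← InfiniteGalois.fixedField_fixingSubgroup (ℚ_[q]⟮ζ⟯), IntermediateField.mem_fixedField_iff]
  intro σ hσ
  apply h
  exact (IntermediateField.mem_fixingSubgroup_iff _ σ).1 hσ ζ (mem_adjoin_simple_self ℚ_[q] ζ)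

theorem w4Fixed_of_mem_adjoin {ζ x : Ω} (h : x ∈ ℚ_[q]⟮ζ⟯) : W4Fixed q ζ x := by
  intro σ hσ
  have hst : Subgroup.zpowers σ ≤ MulAction.stabilizer (Ω ≃ₐ[ℚ_[q]] Ω) ζ := by
    rw [Subgroup.zpowers_le]
    exact hσ
  have hle : ℚ_[q]⟮ζ⟯ ≤ IntermediateField.fixedField (Subgroup.zpowers σ) := by
    rw [adjoin_simple_le_iff, IntermediateField.mem_fixedField_iff]
    intro g hg
    exact hst hg
  exact (IntermediateField.mem_fixedField_iff _ x).1 (hle h) σ (Subgroup.mem_zpowers σ)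

theorem w4Fixed_algebraMap (ζ : Ω) (y : ℚ_[q]) : W4Fixed q ζ (algebraMap ℚ_[q] Ω y) :=
  fun σ _ => σ.commutes y

theorem w4Fixed_natCast (ζ : Ω) (n : ℕ) : W4Fixed q ζ (n : Ω) :=
  fun σ _ => map_natCast σ n

theorem w4Fixed_one (ζ : Ω) : W4Fixed q ζ 1 := fun σ _ => map_one σ

theorem w4Fixed_self (ζ : Ω) : W4Fixed q ζ ζ := fun _ h => h

theorem W4Fixed.mul {ζ x y : Ω} (hx : W4Fixed q ζ x) (hy : W4Fixed q ζ y) :
    W4Fixed q ζ (x * y) := fun σ h => by rw [map_mul, hx σ h, hy σ h]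

theorem W4Fixed.add {ζ x y : Ω} (hx : W4Fixed q ζ x) (hy : W4Fixed q ζ y) :
    W4Fixed q ζ (x + y) := fun σ h => by rw [map_add, hx σ h, hy σ h]

theorem W4Fixed.sub {ζ x y : Ω} (hx : W4Fixed q ζ x) (hy : W4Fixed q ζ y) :
    W4Fixed q ζ (x - y) := fun σ h => by rw [map_sub, hx σ h, hy σ h]

theorem W4Fixed.inv {ζ x : Ω} (hx : W4Fixed q ζ x) : W4Fixed q ζ x⁻¹ :=
  fun σ h => by rw [map_inv₀, hx σ h]

theorem W4Fixed.div {ζ x y : Ω} (hx : W4Fixed q ζ x) (hy : W4Fixed q ζ y) :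
    W4Fixed q ζ (x / y) := fun σ h => by rw [map_div₀, hx σ h, hy σ h]

theorem W4Fixed.pow {ζ x : Ω} (hx : W4Fixed q ζ x) (n : ℕ) : W4Fixed q ζ (x ^ n) :=
  fun σ h => by rw [map_pow, hx σ h]

theorem W4Fixed.zpow {ζ x : Ω} (hx : W4Fixed q ζ x) (n : ℤ) : W4Fixed q ζ (x ^ n) :=
  fun σ h => by rw [map_zpow₀, hx σ h]

/-! ### norms -/

variable (q)

theorem w4a_norm_natCast_le (n : ℕ) : ‖(n : Ω)‖ ≤ 1 := by
  induction n with
  | zero => simp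
  | succ n ih =>
    rw [Nat.cast_succ]
    exact (w4a_norm_add_le q _ _).trans (max_le ih (le_of_eq norm_one))

theorem w4a_norm_q : ‖(q : Ω)‖ = (q : ℝ)⁻¹ := Fermat.Agent.S56.kill_norm_q q

theorem w4a_q_pos : (0 : ℝ) < q := Nat.cast_pos.2 (Fact.out : q.Prime).pos

theorem w4a_one_lt_q : (1 : ℝ) < q := Nat.one_lt_cast.2 (Fact.out : q.Prime).one_lt

theorem w4a_q_ne_zero : (q : Ω) ≠ 0 := Nat.cast_ne_zero.2 (Fact.out : q.Prime).ne_zero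

theorem w4a_norm_natCast_of_dvd {n : ℕ} (h : q ∣ n) : ‖(n : Ω)‖ ≤ (q : ℝ)⁻¹ := by
  obtain ⟨c, rfl⟩ := h
  rw [Nat.cast_mul, norm_mul, w4a_norm_q]
  exact mul_le_of_le_one_right (inv_nonneg.2 (w4a_q_pos q).le) (w4a_norm_natCast_le q c)

/-- the norm of an integer `n` prime to `q` is `1` -/
theorem w4a_norm_natCast_of_not_dvd {n : ℕ} (h : ¬ q ∣ n) : ‖(n : Ω)‖ = 1 := by
  have hq : q.Prime := Fact.out
  have e : (n : Ω) = algebraMap ℚ_[q] Ω (n : ℚ_[q]) := (map_natCast _ n).symm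
  rw [e, PadicAlgCl.norm_extends]
  have h1 : ‖((n : ℤ) : ℚ_[q])‖ = 1 := by
    rw [Padic.norm_intCast_eq_one_iff]
    rw [Int.isCoprime_iff_gcd_eq_one, Int.gcd_natCast_natCast]
    exact ((Nat.Prime.coprime_iff_not_dvd hq).2 h).symm
  exact_mod_cast h1

variable {q}

/-- norm `< 1` for a fixed element forces norm `≤ 1/q` -/
theorem W4Fixed.norm_eq {m : ℕ} (hm : Nat.Coprime m q) {ζ : Ω} (hζ : IsPrimitiveRoot ζ m)
    {x : Ω} (hx : W4Fixed q ζ x) (hx0 : x ≠ 0) : ∃ n : ℤ, ‖x‖ = (q : ℝ) ^ n := by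
  have hm' : Nat.Coprime m (resCard (resVal ℚ_[q] (padicVal q))) := by
    rw [padicVal_resCard_base]
    exact hm
  have hxE : x ∈ ℚ_[q]⟮ζ⟯ := hx.mem_adjoin
  have hx0' : (⟨x, hxE⟩ : ℚ_[q]⟮ζ⟯) ≠ 0 := fun h => hx0 (congrArg Subtype.val h)
  obtain ⟨y, hy⟩ := unram_val (padicVal q) (padicVal_isInvVal_base q) (padicVal_isLocalVal_base q)
    hm' hζ ⟨x, hxE⟩ hx0'
  rw [padicVal_apply, padicVal_apply] at hy
  have hy' : ‖x‖ = ‖y‖ := by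
    have := congrArg NNReal.toReal hy
    rw [coe_nnnorm, coe_nnnorm, PadicAlgCl.norm_extends] at this
    exact this
  have hy0 : y ≠ 0 := by
    rintro rfl
    rw [norm_zero, norm_eq_zero] at hy'
    exact hx0 hy'
  refine ⟨-y.valuation, ?_⟩
  rw [hy', Padic.norm_eq_zpow_neg_valuation hy0]

theorem W4Fixed.norm_le_of_lt {m : ℕ} (hm : Nat.Coprime m q) {ζ : Ω} (hζ : IsPrimitiveRoot ζ m)
    {x : Ω} (hx : W4Fixed q ζ x) (h : ‖x‖ < 1) : ‖x‖ ≤ (q : ℝ)⁻¹ := by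
  by_cases hx0 : x = 0
  · rw [hx0, norm_zero]
    exact inv_nonneg.2 (w4a_q_pos q).le
  obtain ⟨n, hn⟩ := hx.norm_eq hm hζ hx0
  rw [hn] at h ⊢
  have hn0 : n < 0 := by
    by_contra hcon
    have : (1 : ℝ) ≤ (q : ℝ) ^ n := one_le_zpow₀ (w4a_one_lt_q q).le (not_lt.1 hcon)
    exact absurd h (not_lt.2 this)
  have : (q : ℝ) ^ n ≤ (q : ℝ) ^ (-1 : ℤ) :=
    zpow_le_zpow_right₀ (w4a_one_lt_q q).le (by omega)
  rwa [zpow_neg_one] at this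

/-- distinct `m`-th roots of unity are incongruent -/
theorem w4a_root_eq_of_close {m : ℕ} (hm : Nat.Coprime m q) {ζ : Ω} (hζ : IsPrimitiveRoot ζ m)
    {a b : Ω} (ha : a ^ m = 1) (hb : b ^ m = 1) (h : ‖a - b‖ < 1) : a = b := by
  have hq : q.Prime := Fact.out
  have hm0 : m ≠ 0 := by
    rintro rfl
    rw [Nat.coprime_zero_left] at hm
    exact hq.ne_one hm
  have : NeZero m := ⟨hm0⟩
  obtain ⟨i, -, rfl⟩ := hζ.eq_pow_of_pow_eq_one ha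
  obtain ⟨j, -, rfl⟩ := hζ.eq_pow_of_pow_eq_one hb
  by_contra hne
  have hm' : Nat.Coprime m (resCard (resVal ℚ_[q] (padicVal q))) := by
    rw [padicVal_resCard_base]
    exact hm
  have h1 := val_sub_one_rootOfUnity (E := ℚ_[q]) (padicVal q) (padicVal_isLocalVal_base q) hm' hζ
    i j hne
  rw [padicVal_apply] at h1
  have h2 : ‖ζ ^ i - ζ ^ j‖ = 1 := by
    have := congrArg NNReal.toReal h1
    simpa using this
  rw [h2] at h
  exact lt_irrefl _ h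

/-! ### `q`-th powers -/

theorem w4a_norm_eq_one_of_close {u : Ω} (h : ‖u - 1‖ < 1) : ‖u‖ = 1 := by
  apply le_antisymm
  · have e : u = (u - 1) + 1 := by ring
    rw [e]
    exact (w4a_norm_add_le q _ _).trans (max_le h.le (le_of_eq norm_one))
  · by_contra hcon
    have hlt : ‖u‖ < 1 := not_le.1 hcon
    have e : (1 : Ω) = u - (u - 1) := by ring
    have h1 : ‖(1 : Ω)‖ < 1 := by
      rw [e]
      exact lt_of_le_of_lt (w4a_norm_sub_le q _ _) (max_lt hlt h)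
    rw [norm_one] at h1
    exact lt_irrefl _ h1

/-- `‖(1 + y) ^ q - (1 + q y)‖ ≤ q⁻³` for `‖y‖ ≤ q⁻¹`, `q` odd. -/
theorem w4a_binom (hq2 : q ≠ 2) {y : Ω} (hy : ‖y‖ ≤ (q : ℝ)⁻¹) :
    ‖(1 + y) ^ q - (1 + q * y)‖ ≤ ((q : ℝ)⁻¹) ^ 3 := by
  have hq : q.Prime := Fact.out
  have hq3 : 3 ≤ q := by
    have := hq.two_le
    omega
  have hqi0 : (0 : ℝ) ≤ (q : ℝ)⁻¹ := inv_nonneg.2 (w4a_q_pos q).le
  have hqi1 : (q : ℝ)⁻¹ ≤ 1 := inv_le_one_of_one_le₀ (w4a_one_lt_q q).le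
  have hy1 : ‖y‖ ≤ 1 := hy.trans hqi1
  have key : (1 + y) ^ q - (1 + q * y)
      = ∑ i ∈ ((Finset.range (q + 1)).erase 0).erase 1, y ^ i * (q.choose i : Ω) := by
    rw [add_comm 1 y, add_pow]
    have h0 : (0 : ℕ) ∈ Finset.range (q + 1) := by simp
    have h1 : (1 : ℕ) ∈ (Finset.range (q + 1)).erase 0 := by
      rw [Finset.mem_erase, Finset.mem_range]
      exact ⟨one_ne_zero, by omega⟩
    rw [← Finset.add_sum_erase _ _ h0, ← Finset.add_sum_erase _ _ h1]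
    simp only [one_pow, mul_one, pow_zero, Nat.choose_zero_right, Nat.cast_one, pow_one,
      Nat.choose_one_right]
    ring
  rw [key]
  refine IsUltrametricDist.norm_sum_le_of_forall_le_of_nonneg (pow_nonneg hqi0 3) ?_
  intro i hi
  rw [Finset.mem_erase, Finset.mem_erase, Finset.mem_range] at hi
  obtain ⟨hi1, hi0, hiq⟩ := hi
  have hi2 : 2 ≤ i := by omega
  rw [norm_mul, norm_pow]
  have hyi : ‖y‖ ^ i ≤ ((q : ℝ)⁻¹) ^ 2 :=
    (pow_le_pow_of_le_one (norm_nonneg _) hy1 hi2).trans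
      (pow_le_pow_left₀ (norm_nonneg _) hy 2)
  by_cases hiq' : i < q
  · have hdvd : q ∣ q.choose i := hq.dvd_choose_self hi0 hiq'
    have hc := w4a_norm_natCast_of_dvd q hdvd
    calc ‖y‖ ^ i * ‖(q.choose i : Ω)‖ ≤ ((q : ℝ)⁻¹) ^ 2 * (q : ℝ)⁻¹ :=
          mul_le_mul hyi hc (norm_nonneg _) (pow_nonneg hqi0 2)
      _ = ((q : ℝ)⁻¹) ^ 3 := by ring
  · have hiq2 : i = q := by omega
    have hc := w4a_norm_natCast_le q (q.choose i)
    have hyi3 : ‖y‖ ^ i ≤ ((q : ℝ)⁻¹) ^ 3 := by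
      rw [hiq2]
      exact (pow_le_pow_of_le_one (norm_nonneg _) hy1 hq3).trans
        (pow_le_pow_left₀ (norm_nonneg _) hy 3)
    calc ‖y‖ ^ i * ‖(q.choose i : Ω)‖ ≤ ((q : ℝ)⁻¹) ^ 3 * 1 :=
          mul_le_mul hyi3 hc (norm_nonneg _) (pow_nonneg hqi0 3)
      _ = ((q : ℝ)⁻¹) ^ 3 := mul_one _

/-- A fixed element close to `1` is the `q`-th power of a fixed element. -/
theorem W4Fixed.exists_pow_eq (hq2 : q ≠ 2) {m : ℕ} (hm0 : 0 < m) {ζ : Ω}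
    (hζ : IsPrimitiveRoot ζ m) {u : Ω} (hu : W4Fixed q ζ u) (h : ‖u - 1‖ ≤ ((q : ℝ)⁻¹) ^ 2) :
    ∃ w : Ω, W4Fixed q ζ w ∧ w ^ q = u := by
  have hq : q.Prime := Fact.out
  have hqi0 : (0 : ℝ) < (q : ℝ)⁻¹ := inv_pos.2 (w4a_q_pos q)
  have hqi1 : (q : ℝ)⁻¹ < 1 := inv_lt_one_of_one_lt₀ (w4a_one_lt_q q)
  have hq0 : (q : Ω) ≠ 0 := w4a_q_ne_zero q
  have hu1 : ‖u - 1‖ < 1 := lt_of_le_of_lt h (pow_lt_one₀ hqi0.le hqi1 (by norm_num))
  have hnu : ‖u‖ = 1 := w4a_norm_eq_one_of_close hu1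
  have hu0 : u ≠ 0 := fun h0 => by rw [h0, norm_zero] at hnu; exact zero_ne_one hnu
  set y : Ω := (u - 1) / q with hy
  have hyn : ‖y‖ ≤ (q : ℝ)⁻¹ := by
    rw [hy, norm_div, w4a_norm_q, div_le_iff₀ hqi0]
    calc ‖u - 1‖ ≤ ((q : ℝ)⁻¹) ^ 2 := h
      _ = (q : ℝ)⁻¹ * (q : ℝ)⁻¹ := by ring
  have hyu : 1 + (q : Ω) * y = u := by
    rw [hy, mul_div_cancel₀ _ hq0]
    ring
  have hb := w4a_binom hq2 hyn
  rw [hyu] at hb
  have hyF : W4Fixed q ζ y := (hu.sub (w4Fixed_one ζ)).div (w4Fixed_natCast ζ q)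
  have hvF : W4Fixed q ζ ((1 + y) ^ q) := ((w4Fixed_one ζ).add hyF).pow q
  set t : Ω := (1 + y) ^ q / u with ht
  have htF : W4Fixed q ζ t := hvF.div hu
  have htn : ‖t - 1‖ ≤ ((q : ℝ)⁻¹) ^ 3 := by
    have e : t - 1 = ((1 + y) ^ q - u) / u := by
      rw [ht]
      field_simp
    rw [e, norm_div, hnu, div_one]
    exact hb
  -- the finite extension `E = ℚ_q(ζ)`
  have hint : IsIntegral ℚ_[q] ζ := hζ.isIntegral hm0 |>.tower_top
  have hfd : FiniteDimensional ℚ_[q] ℚ_[q]⟮ζ⟯ := adjoin.finiteDimensional hint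
  have hE := padicVal_isLocalVal q ℚ_[q]⟮ζ⟯
  have htE : t ∈ ℚ_[q]⟮ζ⟯ := htF.mem_adjoin
  have hclose : resVal ℚ_[q]⟮ζ⟯ (padicVal q) ((⟨t, htE⟩ : ℚ_[q]⟮ζ⟯) - 1)
      < resVal ℚ_[q]⟮ζ⟯ (padicVal q) ((q : ℕ) : ℚ_[q]⟮ζ⟯) ^ 2 := by
    rw [resVal_apply, resVal_apply, padicVal_apply, padicVal_apply, map_sub, map_one,
      map_natCast, ← NNReal.coe_lt_coe, NNReal.coe_pow, coe_nnnorm, coe_nnnorm, w4a_norm_q]
    show ‖t - 1‖ < _
    refine lt_of_le_of_lt htn ?_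
    calc ((q : ℝ)⁻¹) ^ 3 = ((q : ℝ)⁻¹) ^ 2 * (q : ℝ)⁻¹ := by ring
      _ < ((q : ℝ)⁻¹) ^ 2 * 1 := by
          exact mul_lt_mul_of_pos_left hqi1 (pow_pos hqi0 2)
      _ = ((q : ℝ)⁻¹) ^ 2 := mul_one _
  obtain ⟨x, hx⟩ := exists_pow_eq_of_close (resVal ℚ_[q]⟮ζ⟯ (padicVal q)) hE q hq ⟨t, htE⟩ hclose
  have hx' : (x : Ω) ^ q = t := by
    have := congrArg (Subtype.val) hx
    simpa using this
  have hxF : W4Fixed q ζ (x : Ω) := w4Fixed_of_mem_adjoin x.2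
  have ht0 : t ≠ 0 := by
    intro h0
    have : ‖t - 1‖ = 1 := by rw [h0, zero_sub, norm_neg, norm_one]
    rw [this] at htn
    exact absurd htn (not_le.2 (pow_lt_one₀ hqi0.le hqi1 (by norm_num)))
  have hx0 : (x : Ω) ≠ 0 := by
    intro h0
    rw [h0, zero_pow hq.ne_zero] at hx'
    exact ht0 hx'.symm
  refine ⟨(1 + y) / (x : Ω), ((w4Fixed_one ζ).add hyF).div hxF, ?_⟩
  rw [div_pow, hx', ht]
  have hv0 : (1 + y) ^ q ≠ 0 := by
    intro h0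
    rw [ht, h0, zero_div] at ht0
    exact ht0 rfl
  field_simp

end Fermat.Agent.S56.W4A
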